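import Mathlib
import Fermat.Agent.MUL.Lib.VarChange.BaseChange
import Fermat.Agent.MUL.Lib.MultRed.DecompQbar

section MergeWrap_E_S12_Quot_VcSurj -- from E/S12/Quot/VcSurj.lean

set_option autoImplicit false

open WeierstrassCurve WeierstrassCurve.Affine WeierstrassCurve.Affine.Point

noncomputable section

namespace Fermat.Agent.VarChange

variable {K : Type*} [Field K] [DecidableEq K]

theorem vcFun_surjective {W₁ W₂ : Affine K} (C : VariableChange K) (h : W₂ = C • W₁) :
    Function.Surjective (vcFun C h) := by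
  subst h
  rintro (_ | ⟨X, Y, hP⟩)
  · exact ⟨0, rfl⟩
  · have hu : (C.u : K) ≠ 0 := vc_u_ne_zero C
    set x : K := (X - C.r) / (C.u : K) ^ 2 with hx
    set y : K := (Y - (C.u : K) ^ 2 * C.s * x - C.t) / (C.u : K) ^ 3 with hy
    have hX : vcX C x = X := by
      simp only [vcX, hx]
      field_simp
      ring
    have hY : vcY C x y = Y := by
      simp only [vcY, hy]
      field_simp
      ring
    have hns : (C • W₁).toAffine.Nonsingular x y := by
      rw [vc_nonsingular_iff, hX, hY]
      exact hP
    refine ⟨.some x y hns, ?_⟩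
    rw [vcFun_some]
    simp only [Point.some.injEq]
    exact ⟨hX, hY⟩

theorem vcHom_surjective {W₁ W₂ : Affine K} (C : VariableChange K) (h : W₂ = C • W₁) :
    Function.Surjective (vcHom C h) := vcFun_surjective C h

theorem vcHomBC_surjective {F : Type*} [Field F] [Algebra F K] {W₁ W₂ : WeierstrassCurve F}
    (C : VariableChange F) (hC : C • W₁ = W₂) :
    Function.Surjective (vcHomBC (K := K) C hC) :=
  vcHom_surjective _ _

/-- the `x`-coordinate of the image of an affine point under `vcHomBC`. -/
theorem vcHomBC_some {F : Type*} [Field F] [Algebra F K] {W₁ W₂ : WeierstrassCurve F}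
    (C : VariableChange F) (hC : C • W₁ = W₂) {x y : K} (h : (W₁⁄K).Nonsingular x y) :
    ∃ h' : (W₂⁄K).Nonsingular (vcX ((C⁻¹).baseChange K) x) (vcY ((C⁻¹).baseChange K) x y),
      vcHomBC (K := K) C hC (.some x y h) =
        .some (vcX ((C⁻¹).baseChange K) x) (vcY ((C⁻¹).baseChange K) x y) h' :=
  ⟨_, rfl⟩

end Fermat.Agent.VarChange
end
end MergeWrap_E_S12_Quot_VcSurj
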