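import Mathlib
import Fermat.Agent.MUL.Orig.E.S12.Leaves
import Fermat.Agent.MUL.E.S12.AtTwo
import Fermat.Agent.MUL.E.S12.StepAux
import Fermat.Agent.MUL.Orig.Lib.Frobenius.Exists
import Fermat.Agent.MUL.Orig.E.S12.Defs
import Fermat.Agent.MUL.Lib.Minkowski.Final
import Fermat.Agent.MUL.Lib.VarChange.Point
import Fermat.Agent.MUL.Lib.Torsion.Card
import Fermat.Agent.MUL.E.S12.Unram
import Fermat.Agent.MUL.Lib.MultRed.Main
import Fermat.Agent.MUL.Lib.VarChange.BaseChange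
import Fermat.Agent.MUL.E.S12.Quot.VcSurj
import Fermat.Agent.MUL.Orig.S14.CrossingInterface

section MergeWrap_E_S12_Quot_Spec -- from E/S12/Quot/Spec.lean

set_option autoImplicit false

open WeierstrassCurve WeierstrassCurve.Affine WeierstrassCurve.Affine.Point

noncomputable section

namespace Fermat.Agent.ES12

open Fermat.Agent.EV

/-- **(V1 + V1Q)** the Vélu quotient over `ℚ`. -/
def VeluQStatement : Prop :=
  ∀ (W : WeierstrassCurve ℚ), W.Δ ≠ 0 →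
    ∀ N₀ : AddSubgroup (W⁄Qb).Point, (N₀ : Set (W⁄Qb).Point).Finite → Odd (Nat.card N₀) →
      (∀ σ : GQ, ∀ P ∈ N₀, σ • P ∈ N₀) →
      ∃ W' : WeierstrassCurve ℚ, W'.Δ ≠ 0 ∧
        (W'.map (algebraMap ℚ Qb) : WeierstrassCurve Qb) =
          veluCurve (W⁄Qb) (N₀ : Set (W⁄Qb).Point) ∧
        ∃ φ : (W⁄Qb).Point →+ (W'⁄Qb).Point, Function.Surjective φ ∧ φ.ker = N₀ ∧
          (∀ (σ : GQ) (P : (W⁄Qb).Point), φ (σ • P) = σ • φ P) ∧
          ∀ (x y : Qb) (h : (W⁄Qb).Nonsingular x y), (Point.some x y h : (W⁄Qb).Point) ∉ N₀ →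
            ∃ (y' : Qb) (h' : (W'⁄Qb).Nonsingular
                (veluX (W⁄Qb) (N₀ : Set (W⁄Qb).Point) (.some x y h)) y'),
              φ (.some x y h) = .some (veluX (W⁄Qb) (N₀ : Set (W⁄Qb).Point) (.some x y h)) y' h'

/-- **(L0)** the Vélu model of a Frey-type curve (quotient by a Galois-stable subgroup of order
`p`) has `v₂ (j) < 0`. -/
def AtTwoStatement (p : ℕ) : Prop :=
  ∀ A B : ℤ, IsFreyPair A B →
    ∀ N₀ : AddSubgroup (Pts (freyLike A B)), Nat.card N₀ = p →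
      (∀ σ : GQ, ∀ P ∈ N₀, σ • P ∈ N₀) →
      ∀ W' : WeierstrassCurve ℚ,
        (W'.map (algebraMap ℚ Qb) : WeierstrassCurve Qb) =
          veluCurve (CurveQb (freyLike A B)) (N₀ : Set (Pts (freyLike A B))) →
        W'.c₄ ≠ 0 ∧ 3 * padicValRat 2 W'.c₄ < padicValRat 2 W'.Δ

/-- **(V1x, rational form)** the `x`-map of the Vélu isogeny is a rational function of `x`. -/
def VeluXRatStatement : Prop :=
  ∀ (W : Affine Qb), W.Δ ≠ 0 → ∀ N₀ : AddSubgroup W.Point, (N₀ : Set W.Point).Finite →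
    Odd (Nat.card N₀) →
    ∃ n d : Polynomial Qb, ∀ (x y : Qb) (h : W.Nonsingular x y),
      (Point.some x y h : W.Point) ∉ N₀ →
        d.eval x ≠ 0 ∧ veluX W (N₀ : Set W.Point) (.some x y h) = n.eval x / d.eval x

end Fermat.Agent.ES12
end
end MergeWrap_E_S12_Quot_Spec

section MergeWrap_E_S12_AtTwoStmt -- from E/S12/AtTwoStmt.lean

set_option autoImplicit false
set_option linter.unusedSectionVars false

open WeierstrassCurve WeierstrassCurve.Affine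

namespace Fermat.Agent.ES12

open Fermat.Agent.EV Fermat.Agent.EVC

section RatVal

variable {𝒜 : ValuationSubring Qb} {ℓ : ℕ}

theorem ratCast_eq_num_div_den (r : ℚ) :
    (r : Qb) * ((r.den : ℤ) : Qb) = ((r.num : ℤ) : Qb) := by
  have h1 : (r : ℚ) * (r.den : ℚ) = (r.num : ℚ) := Rat.mul_den_eq_num r
  exact_mod_cast h1

/-- an `ℓ`-integral rational number has denominator prime to `ℓ` -/
theorem not_dvd_den_of_val_le_one (hℓ : ℓ.Prime) (h𝒜 : 𝒜.LiesOverPrime ℓ) (r : ℚ)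
    (hr : 𝒜.valuation (r : Qb) ≤ 1) : ¬ (ℓ : ℤ) ∣ (r.den : ℤ) := by
  intro hd
  have hden : 𝒜.valuation (((r.den : ℤ)) : Qb) < 1 :=
    (valuation_intCast_lt_one_iff hℓ 𝒜 h𝒜 _).mpr hd
  have hnum : ¬ (ℓ : ℤ) ∣ r.num := by
    intro hn
    have h1 : ℓ ∣ r.num.natAbs := Int.natCast_dvd.mp hn
    have h2 : ℓ ∣ r.den := Int.natCast_dvd_natCast.mp hd
    have h3 := Nat.dvd_gcd h1 h2
    rw [r.reduced] at h3
    exact hℓ.one_lt.ne' (Nat.dvd_one.mp h3)
  have hnum1 : 𝒜.valuation ((r.num : ℤ) : Qb) = 1 :=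
    stepAux_valuation_intCast_eq_one hℓ 𝒜 h𝒜 hnum
  have h := congrArg 𝒜.valuation (ratCast_eq_num_div_den r)
  rw [map_mul, hnum1] at h
  have hlt : 𝒜.valuation (r : Qb) * 𝒜.valuation (((r.den : ℤ)) : Qb) < 1 := by
    calc 𝒜.valuation (r : Qb) * 𝒜.valuation (((r.den : ℤ)) : Qb)
        ≤ 1 * 𝒜.valuation (((r.den : ℤ)) : Qb) := mul_le_mul' hr le_rfl
      _ = 𝒜.valuation (((r.den : ℤ)) : Qb) := one_mul _
      _ < 1 := hden
  rw [h] at hlt
  exact lt_irrefl _ hlt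

theorem val_ratCast_eq_val_num (hℓ : ℓ.Prime) (h𝒜 : 𝒜.LiesOverPrime ℓ) (r : ℚ)
    (hr : 𝒜.valuation (r : Qb) ≤ 1) :
    𝒜.valuation (r : Qb) = 𝒜.valuation ((r.num : ℤ) : Qb) := by
  have hden : 𝒜.valuation (((r.den : ℤ)) : Qb) = 1 :=
    stepAux_valuation_intCast_eq_one hℓ 𝒜 h𝒜 (not_dvd_den_of_val_le_one hℓ h𝒜 r hr)
  have h := congrArg 𝒜.valuation (ratCast_eq_num_div_den r)
  rw [map_mul, hden, mul_one] at h
  exact h

theorem padicValRat_eq_of_val_le_one (hℓ : ℓ.Prime) (h𝒜 : 𝒜.LiesOverPrime ℓ) (r : ℚ)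
    (hr : 𝒜.valuation (r : Qb) ≤ 1) :
    padicValRat ℓ r = padicValInt ℓ r.num := by
  have hd : ¬ ℓ ∣ r.den := fun h =>
    not_dvd_den_of_val_le_one hℓ h𝒜 r hr (Int.natCast_dvd_natCast.mpr h)
  unfold padicValRat
  rw [padicValNat.eq_zero_of_not_dvd hd]
  simp

/-- a rational `ℓ`-adic unit has `ℓ`-adic valuation `0` -/
theorem padicValRat_eq_zero_of_val_eq_one (hℓ : ℓ.Prime) (h𝒜 : 𝒜.LiesOverPrime ℓ) (r : ℚ)
    (hr : 𝒜.valuation (r : Qb) = 1) : padicValRat ℓ r = 0 := by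
  rw [padicValRat_eq_of_val_le_one hℓ h𝒜 r hr.le]
  have h1 : 𝒜.valuation ((r.num : ℤ) : Qb) = 1 := by
    rw [← val_ratCast_eq_val_num hℓ h𝒜 r hr.le]
    exact hr
  have h2 : ¬ (ℓ : ℤ) ∣ r.num := by
    intro hd
    have := (valuation_intCast_lt_one_iff hℓ 𝒜 h𝒜 _).mpr hd
    rw [h1] at this
    exact lt_irrefl _ this
  rw [padicValInt.eq_zero_of_not_dvd h2]
  rfl

/-- a nonzero rational number of valuation `< 1` has positive `ℓ`-adic valuation -/
theorem padicValRat_pos_of_val_lt_one (hℓ : ℓ.Prime) (h𝒜 : 𝒜.LiesOverPrime ℓ) (r : ℚ)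
    (hr0 : r ≠ 0) (hr : 𝒜.valuation (r : Qb) < 1) : 0 < padicValRat ℓ r := by
  have : Fact ℓ.Prime := ⟨hℓ⟩
  rw [padicValRat_eq_of_val_le_one hℓ h𝒜 r hr.le]
  have h1 : 𝒜.valuation ((r.num : ℤ) : Qb) < 1 := by
    rw [← val_ratCast_eq_val_num hℓ h𝒜 r hr.le]
    exact hr
  have h2 : (ℓ : ℤ) ∣ r.num := (valuation_intCast_lt_one_iff hℓ 𝒜 h𝒜 _).mp h1
  have h3 : ((ℓ : ℤ)) ^ 1 ∣ r.num := by rwa [pow_one]
  rcases (padicValInt_dvd_iff (p := ℓ) 1 r.num).mp h3 with h0 | h4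
  · exact absurd (Rat.num_eq_zero.mp h0) hr0
  · exact_mod_cast h4

end RatVal

/-- **(L0), rational form**: if the Vélu model descends to `W' / ℚ` (with `Δ ≠ 0`), then
`c₄ (W') ≠ 0` and `3 v₂ (c₄) < v₂ (Δ)`, i.e. `v₂ (j (W')) < 0`. -/
theorem atTwo_rat {A B : ℤ} (hAB : IsFreyPair A B) {p : ℕ} (hp : p.Prime) (hp2 : p ≠ 2)
    (N₀ : AddSubgroup (Pts (freyLike A B))) (hcard : Nat.card N₀ = p)
    (hstab : ∀ σ : GQ, ∀ P ∈ N₀, σ • P ∈ N₀)
    (W' : WeierstrassCurve ℚ)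
    (hW' : (W'.map (algebraMap ℚ Qb) : WeierstrassCurve Qb) =
      veluCurve (CurveQb (freyLike A B)) (N₀ : Set (Pts (freyLike A B))))
    (hΔ : W'.Δ ≠ 0) :
    W'.c₄ ≠ 0 ∧ 3 * padicValRat 2 W'.c₄ < padicValRat 2 W'.Δ := by
  obtain ⟨𝒜, h𝒜⟩ := Fermat.Agent.FrobExists.exists_valuationSubring_liesOver 2 Nat.prime_two
  obtain ⟨hc, hd⟩ := atTwo hAB hp hp2 N₀ hcard hstab 𝒜 h𝒜
  have e1 : (veluCurve (CurveQb (freyLike A B)) (N₀ : Set (Pts (freyLike A B)))).c₄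
      = ((W'.c₄ : ℚ) : Qb) := by
    rw [← hW', WeierstrassCurve.map_c₄]
    simp
  have e2 : (veluCurve (CurveQb (freyLike A B)) (N₀ : Set (Pts (freyLike A B)))).Δ
      = ((W'.Δ : ℚ) : Qb) := by
    rw [← hW', WeierstrassCurve.map_Δ]
    simp
  rw [e1] at hc
  rw [e2] at hd
  have hc0 : W'.c₄ ≠ 0 := by
    intro h0
    rw [h0] at hc
    simp at hc
  refine ⟨hc0, ?_⟩
  rw [padicValRat_eq_zero_of_val_eq_one Nat.prime_two h𝒜 _ hc, mul_zero]
  exact padicValRat_pos_of_val_lt_one Nat.prime_two h𝒜 _ hΔ hd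

/-- **(L0)** in the shape of `E/S12/Quot/Spec.lean`. -/
theorem atTwoStatement (hV : VeluStatement) {p : ℕ} (hp : p.Prime) (hp2 : p ≠ 2) :
    AtTwoStatement p := by
  intro A B hAB N₀ hcard hstab W' hW'
  have hfinN : Finite N₀ := Nat.finite_of_card_ne_zero (by rw [hcard]; exact hp.ne_zero)
  have hfin : (N₀ : Set (Pts (freyLike A B))).Finite := Set.toFinite _
  have hodd : Odd (Nat.card N₀) := by rw [hcard]; exact hp.odd_of_ne_two hp2
  have hΔW : (CurveQb (freyLike A B)).Δ ≠ 0 := by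
    have h1 : (CurveQb (freyLike A B)).Δ = (((freyLike A B).Δ : ℤ) : Qb) := by
      show ((((freyLike A B).map (Int.castRingHom ℚ)).map (algebraMap ℚ Qb)).Δ) = _
      rw [WeierstrassCurve.map_Δ, WeierstrassCurve.map_Δ]
      simp
    rw [h1]
    exact_mod_cast freyLike_Δ_ne_zero hAB
  have hVh := hV Qb (CurveQb (freyLike A B)) hΔW N₀ hfin hodd
  have hΔ' : W'.Δ ≠ 0 := by
    intro h0
    apply hVh.1
    rw [← hW', WeierstrassCurve.map_Δ, h0, map_zero]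
  exact atTwo_rat hAB hp hp2 N₀ hcard hstab W' hW' hΔ'

end Fermat.Agent.ES12
end MergeWrap_E_S12_AtTwoStmt

section MergeWrap_E_S12_Leg_Arith -- from E/S12/Leg/Arith.lean

set_option autoImplicit false

namespace Fermat.Agent.ES12

/-- A positive rational is a square times a squarefree natural number. -/
theorem leg_exists_sq_mul_squarefree (g : ℚ) (hg : 0 < g) :
    ∃ (u : ℚ) (d : ℕ), u ≠ 0 ∧ Squarefree d ∧ g = u ^ 2 * d := by
  have hnum : 0 < g.num := Rat.num_pos.mpr hg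
  have hden : 0 < g.den := g.den_pos
  obtain ⟨a, b, hab, ha⟩ := Nat.sq_mul_squarefree (g.num.natAbs * g.den)
  have hb : b ≠ 0 := by
    rintro rfl
    have : g.num.natAbs * g.den ≠ 0 :=
      Nat.mul_ne_zero (Int.natAbs_ne_zero.mpr hnum.ne') hden.ne'
    apply this
    rw [← hab]; ring
  refine ⟨(b : ℚ) / g.den, a, ?_, ha, ?_⟩
  · exact div_ne_zero (by exact_mod_cast hb) (by exact_mod_cast hden.ne')
  · have hdenQ : (g.den : ℚ) ≠ 0 := by exact_mod_cast hden.ne'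
    have h1 : ((b : ℚ)) ^ 2 * a = (g.num : ℚ) * g.den := by
      have h2 : ((b ^ 2 * a : ℕ) : ℚ) = ((g.num.natAbs * g.den : ℕ) : ℚ) := by rw [hab]
      have h4 : ((g.num.natAbs : ℕ) : ℚ) = (g.num : ℚ) := by
        rw [Nat.cast_natAbs, abs_of_pos hnum]
      rw [Nat.cast_mul, Nat.cast_mul, Nat.cast_pow, h4] at h2
      exact h2
    have h3 : g * g.den = (g.num : ℚ) := Rat.mul_den_eq_num g
    rw [div_pow, div_mul_eq_mul_div, h1, ← h3]
    field_simp

/-- Two rationals, the first nonzero, are `g m`, `g n` with `g > 0` and `m, n` coprime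
integers. -/
theorem leg_exists_coprime (M N : ℚ) (hM : M ≠ 0) :
    ∃ (g : ℚ) (m n : ℤ), 0 < g ∧ IsCoprime m n ∧ M = g * m ∧ N = g * n := by
  set a : ℤ := M.num * N.den with ha
  set b : ℤ := N.num * M.den with hb
  have hMden : (M.den : ℚ) ≠ 0 := by exact_mod_cast M.den_pos.ne'
  have hNden : (N.den : ℚ) ≠ 0 := by exact_mod_cast N.den_pos.ne'
  have ha0 : a ≠ 0 := by
    rw [ha]
    exact mul_ne_zero (Rat.num_ne_zero.mpr hM) (by exact_mod_cast N.den_pos.ne')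
  have hG : 0 < Int.gcd a b := Int.gcd_pos_of_ne_zero_left _ ha0
  have hGQ : ((Int.gcd a b : ℕ) : ℚ) ≠ 0 := by exact_mod_cast hG.ne'
  refine ⟨(Int.gcd a b : ℚ) / (M.den * N.den), a / Int.gcd a b, b / Int.gcd a b, ?_, ?_, ?_, ?_⟩
  · apply div_pos
    · exact_mod_cast hG
    · apply mul_pos <;> exact_mod_cast Rat.den_pos _
  · rw [Int.isCoprime_iff_gcd_eq_one]
    exact Int.gcd_div_gcd_div_gcd hG
  · rw [Int.cast_div (Int.gcd_dvd_left a b) (by exact_mod_cast hG.ne')]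
    have : (a : ℚ) = M * (M.den * N.den) := by
      rw [ha]; push_cast
      rw [← Rat.mul_den_eq_num M]
      ring
    rw [this]
    push_cast
    field_simp
  · rw [Int.cast_div (Int.gcd_dvd_right a b) (by exact_mod_cast hG.ne')]
    have : (b : ℚ) = N * (M.den * N.den) := by
      rw [hb]; push_cast
      rw [← Rat.mul_den_eq_num N]
      ring
    rw [this]
    push_cast
    field_simp

/-- **Scaling.**  Two nonzero rationals are `u² d m`, `u² d n` with `u ≠ 0`, `d` a squarefree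
integer and `m, n` coprime integers. -/
theorem leg_exists_scale (M N : ℚ) (hM : M ≠ 0) :
    ∃ (u : ℚ) (d m n : ℤ), u ≠ 0 ∧ Squarefree d ∧ IsCoprime m n ∧
      M = u ^ 2 * (d * m : ℤ) ∧ N = u ^ 2 * (d * n : ℤ) := by
  obtain ⟨g, m, n, hg, hcop, hMg, hNg⟩ := leg_exists_coprime M N hM
  obtain ⟨u, d, hu, hd, hgu⟩ := leg_exists_sq_mul_squarefree g hg
  refine ⟨u, (d : ℤ), m, n, hu, ?_, hcop, ?_, ?_⟩
  · exact Int.squarefree_natCast.mpr hd
  · rw [hMg, hgu]; push_cast; ring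
  · rw [hNg, hgu]; push_cast; ring

theorem leg_isCoprime_thirtytwo_of_odd {x : ℤ} (hx : Odd x) : IsCoprime (32 : ℤ) x := by
  obtain ⟨k, hk⟩ := hx
  have h2 : IsCoprime (2 : ℤ) x := ⟨-k, 1, by rw [hk]; ring⟩
  have := h2.pow_left (m := 5)
  norm_num at this
  exact this

/-- For coprime `m, n`, if `32 ∣ m n (m + n)` then `32` divides one of `m`, `n`, `m + n`. -/
theorem leg_dvd_cases (m n : ℤ) (hcop : IsCoprime m n) (h : (32 : ℤ) ∣ m * n * (m + n)) :
    (32 : ℤ) ∣ m ∨ (32 : ℤ) ∣ n ∨ (32 : ℤ) ∣ m + n := by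
  have hnot : ¬ (Even m ∧ Even n) := by
    rintro ⟨⟨a, ha⟩, ⟨b, hb⟩⟩
    obtain ⟨x, y, hxy⟩ := hcop
    have : (2 : ℤ) ∣ 1 := ⟨x * a + y * b, by rw [← hxy, ha, hb]; ring⟩
    omega
  rcases Int.even_or_odd m with hm | hm
  · have hn : Odd n := by
      rcases Int.even_or_odd n with hn | hn
      · exact absurd ⟨hm, hn⟩ hnot
      · exact hn
    have hmn : Odd (m + n) := hm.add_odd hn
    left
    have h1 : (32 : ℤ) ∣ m * n := (leg_isCoprime_thirtytwo_of_odd hmn).dvd_of_dvd_mul_right h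
    exact (leg_isCoprime_thirtytwo_of_odd hn).dvd_of_dvd_mul_right h1
  · rcases Int.even_or_odd n with hn | hn
    · have hmn : Odd (m + n) := hm.add_even hn
      right; left
      have h1 : (32 : ℤ) ∣ m * n := (leg_isCoprime_thirtytwo_of_odd hmn).dvd_of_dvd_mul_right h
      exact (leg_isCoprime_thirtytwo_of_odd hm).dvd_of_dvd_mul_left h1
    · right; right
      have h1 : IsCoprime (32 : ℤ) (m * n) :=
        (leg_isCoprime_thirtytwo_of_odd hm).mul_right (leg_isCoprime_thirtytwo_of_odd hn)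
      exact h1.dvd_of_dvd_mul_left h

/-- Sign normalisation: coprime `m, n` with `32 ∣ n`, `m n (m + n) ≠ 0`, and `d` squarefree:
`(d m, d n) = (d' m', d' n')` with `(m', n')` a Frey pair and `d' = ± d`. -/
theorem leg_exists_freyPair (m n d : ℤ) (hcop : IsCoprime m n) (hm : m ≠ 0) (hn : n ≠ 0)
    (hmn : m + n ≠ 0) (h32 : (32 : ℤ) ∣ n) (hd : Squarefree d) :
    ∃ m' n' d' : ℤ, IsFreyPair m' n' ∧ Squarefree d' ∧ d' * m' = d * m ∧ d' * n' = d * n := by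
  have hmodd : ¬ (2 : ℤ) ∣ m := by
    rintro ⟨a, ha⟩
    obtain ⟨b, hb⟩ := h32
    obtain ⟨x, y, hxy⟩ := hcop
    have : (2 : ℤ) ∣ 1 := ⟨x * a + y * (16 * b), by rw [← hxy, ha, hb]; ring⟩
    omega
  by_cases h3 : m % 4 = 3
  · exact ⟨m, n, d, ⟨h3, h32, hcop, hm, hn, hmn⟩, hd, rfl, rfl⟩
  · refine ⟨-m, -n, -d, ⟨?_, ?_, ?_, ?_, ?_, ?_⟩, ?_, by ring, by ring⟩
    · omega
    · exact (dvd_neg).mpr h32
    · exact hcop.neg_neg
    · exact neg_ne_zero.mpr hm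
    · exact neg_ne_zero.mpr hn
    · intro h; apply hmn; linarith
    · intro x hx
      exact hd x ((dvd_neg).mp hx)

/-- The `2`-adic valuation computation: if `c₄³ P² = 256 Q³ Δ` with `P, Q` integers and
`3 v₂ (c₄) < v₂ (Δ)`, then `32 ∣ P`. -/
theorem leg_thirtytwo_dvd (P Q : ℤ) (c₄ Δ : ℚ) (hc₄ : c₄ ≠ 0) (hΔ : Δ ≠ 0) (hP : P ≠ 0)
    (hQ : Q ≠ 0) (h : c₄ ^ 3 * (P : ℚ) ^ 2 = 256 * (Q : ℚ) ^ 3 * Δ)
    (hj : 3 * padicValRat 2 c₄ < padicValRat 2 Δ) : (32 : ℤ) ∣ P := by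
  have : Fact (Nat.Prime 2) := ⟨Nat.prime_two⟩
  have hPQ : (P : ℚ) ≠ 0 := by exact_mod_cast hP
  have hQQ : (Q : ℚ) ≠ 0 := by exact_mod_cast hQ
  have h256 : padicValRat 2 (256 : ℚ) = 8 := by
    have : (256 : ℚ) = ((2 : ℕ) : ℚ) ^ 8 := by norm_num
    rw [this, padicValRat.pow, padicValRat.self (by norm_num)]
    norm_num
  have hv := congrArg (padicValRat 2) h
  rw [padicValRat.mul (pow_ne_zero _ hc₄) (pow_ne_zero _ hPQ),
    padicValRat.mul (mul_ne_zero (by norm_num) (pow_ne_zero _ hQQ)) hΔ,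
    padicValRat.mul (by norm_num) (pow_ne_zero _ hQQ),
    padicValRat.pow, padicValRat.pow, padicValRat.pow, h256,
    padicValRat.of_int, padicValRat.of_int] at hv
  have hQ0 : (0 : ℤ) ≤ (padicValInt 2 Q : ℤ) := Int.natCast_nonneg _
  have h5 : 5 ≤ padicValInt 2 P := by
    push_cast at hv
    omega
  have : ((2 : ℕ) : ℤ) ^ 5 ∣ P := (padicValInt_dvd_iff 5 P).mpr (Or.inr h5)
  norm_num at this
  exact this

end Fermat.Agent.ES12
end MergeWrap_E_S12_Leg_Arith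

section MergeWrap_E_S12_Leg_Curve -- from E/S12/Leg/Curve.lean

set_option autoImplicit false

open WeierstrassCurve WeierstrassCurve.Affine

namespace Fermat.Agent.ES12

/-- The Legendre-type curve `y² = x (x − M) (x + N)`. -/
def legCurve {R : Type*} [CommRing R] (M N : R) : WeierstrassCurve R where
  a₁ := 0
  a₂ := N - M
  a₃ := 0
  a₄ := -(M * N)
  a₆ := 0

section basic

variable {R : Type*} [CommRing R] (M N : R)

@[simp] theorem legCurve_a₁ : (legCurve M N).a₁ = 0 := rfl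
@[simp] theorem legCurve_a₂ : (legCurve M N).a₂ = N - M := rfl
@[simp] theorem legCurve_a₃ : (legCurve M N).a₃ = 0 := rfl
@[simp] theorem legCurve_a₄ : (legCurve M N).a₄ = -(M * N) := rfl
@[simp] theorem legCurve_a₆ : (legCurve M N).a₆ = 0 := rfl

theorem legCurve_b₂ : (legCurve M N).b₂ = 4 * (N - M) := by
  simp only [WeierstrassCurve.b₂, legCurve]; ring

theorem legCurve_b₄ : (legCurve M N).b₄ = -2 * (M * N) := by
  simp only [WeierstrassCurve.b₄, legCurve]; ring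

theorem legCurve_b₆ : (legCurve M N).b₆ = 0 := by
  simp only [WeierstrassCurve.b₆, legCurve]; ring

theorem legCurve_c₄ : (legCurve M N).c₄ = 16 * (M ^ 2 + M * N + N ^ 2) := by
  simp only [WeierstrassCurve.c₄, WeierstrassCurve.b₂, WeierstrassCurve.b₄, legCurve]; ring

theorem legCurve_Δ : (legCurve M N).Δ = 16 * (M * N * (M + N)) ^ 2 := by
  simp only [WeierstrassCurve.Δ, WeierstrassCurve.b₂, WeierstrassCurve.b₄, WeierstrassCurve.b₆,
    WeierstrassCurve.b₈, legCurve]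
  ring

/-- Swapping the two nonzero roots: `{0, M, −N} = {0, −N, M}`. -/
theorem legCurve_swap : legCurve M N = legCurve (-N) (-M) := by
  ext <;> simp only [legCurve] <;> ring

theorem legCurve_map {S : Type*} [CommRing S] (f : R →+* S) :
    (legCurve M N).map f = legCurve (f M) (f N) := by
  ext <;> simp [legCurve]

end basic

/-- Translation by the root `M`: `{0, M, −N} − M = {−M, 0, −(M + N)}`. -/
theorem legCurve_shift (M N : ℚ) :
    (⟨1, M, 0, 0⟩ : VariableChange ℚ) • legCurve M N = legCurve (-M) (M + N) := by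
  ext
  · rw [variableChange_a₁]; simp [legCurve]
  · rw [variableChange_a₂]; simp [legCurve]; ring
  · rw [variableChange_a₃]; simp [legCurve]
  · rw [variableChange_a₄]; simp [legCurve]; ring
  · rw [variableChange_a₆]; simp [legCurve]; ring

/-- Scaling: `legCurve (u² M) (u² N) ≅ legCurve M N`. -/
theorem legCurve_scale (u : ℚˣ) (M N : ℚ) :
    (⟨u, 0, 0, 0⟩ : VariableChange ℚ) • legCurve ((u : ℚ) ^ 2 * M) ((u : ℚ) ^ 2 * N)
      = legCurve M N := by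
  have hu : (u : ℚ) ≠ 0 := u.ne_zero
  have hinv : ((u⁻¹ : ℚˣ) : ℚ) = (u : ℚ)⁻¹ := by simp
  ext
  · rw [variableChange_a₁]; simp [legCurve]
  · rw [variableChange_a₂]; simp only [legCurve, hinv]; field_simp; ring
  · rw [variableChange_a₃]; simp [legCurve]
  · rw [variableChange_a₄]; simp only [legCurve, hinv]; field_simp; ring
  · rw [variableChange_a₆]; simp [legCurve]

/-- **Completing the square and translating a root to `0`**: if the `2`-division cubic of `W` is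
`4 (x − e₁) (x − e₂) (x − e₃)` then `W ≅ legCurve (e₂ − e₁) (e₁ − e₃)`. -/
theorem legCurve_of_roots (W : WeierstrassCurve ℚ) (e₁ e₂ e₃ : ℚ)
    (h₂ : W.b₂ = -4 * (e₁ + e₂ + e₃))
    (h₄ : W.b₄ = 2 * (e₁ * e₂ + e₁ * e₃ + e₂ * e₃))
    (h₆ : W.b₆ = -4 * (e₁ * e₂ * e₃)) :
    (⟨1, e₁, -W.a₁ / 2, -(W.a₁ * e₁ + W.a₃) / 2⟩ : VariableChange ℚ) • W
      = legCurve (e₂ - e₁) (e₁ - e₃) := by
  simp only [WeierstrassCurve.b₂, WeierstrassCurve.b₄, WeierstrassCurve.b₆] at h₂ h₄ h₆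
  ext
  · rw [variableChange_a₁]; simp [legCurve]; ring
  · rw [variableChange_a₂]; simp [legCurve]; linear_combination (1 / 4 : ℚ) * h₂
  · rw [variableChange_a₃]; simp [legCurve]; ring
  · rw [variableChange_a₄]; simp [legCurve]
    linear_combination (1 / 2 : ℚ) * h₄ + (e₁ / 2) * h₂
  · rw [variableChange_a₆]; simp [legCurve]
    linear_combination (1 / 4 : ℚ) * h₆ + (e₁ / 2) * h₄ + (e₁ ^ 2 / 4) * h₂

/-- The variable change `X = 4 x`, `Y = 8 y + 4 x` from the Frey model to the Legendre model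
(`u = 1/2`, `r = 0`, `s = -1/2`, `t = 0`). -/
def freyLegVC : VariableChange ℚ := ⟨Units.mk0 (1 / 2) (by norm_num), 0, -1 / 2, 0⟩

theorem four_dvd_of_isFreyPair {A B : ℤ} (h : IsFreyPair A B) : (4 : ℤ) ∣ B - 1 - A := by
  have h1 := h.hA
  have h2 := h.hB
  omega

theorem sixteen_dvd_of_isFreyPair {A B : ℤ} (h : IsFreyPair A B) : (16 : ℤ) ∣ -(A * B) := by
  obtain ⟨k, hk⟩ := h.hB
  exact ⟨-(A * k * 2), by rw [hk]; ring⟩

/-- **(LEG-F)** the Frey model of a Frey pair is `ℚ`-isomorphic to `legCurve A B`. -/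
theorem freyLegVC_smul (A B : ℤ) (h : IsFreyPair A B) :
    freyLegVC • (freyLike A B).map (Int.castRingHom ℚ) = legCurve (A : ℚ) (B : ℚ) := by
  have h4 : (((B - 1 - A) / 4 : ℤ) : ℚ) = ((B : ℚ) - 1 - A) / 4 := by
    rw [Int.cast_div (four_dvd_of_isFreyPair h) (by norm_num)]
    push_cast; rfl
  have h16 : ((-(A * B) / 16 : ℤ) : ℚ) = -((A : ℚ) * B) / 16 := by
    rw [Int.cast_div (sixteen_dvd_of_isFreyPair h) (by norm_num)]
    push_cast; rfl
  have hu : ((freyLegVC.u⁻¹ : ℚˣ) : ℚ) = 2 := by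
    simp [freyLegVC]
  ext
  · rw [variableChange_a₁, hu]
    simp only [freyLegVC, freyLike, legCurve, map_a₁, eq_intCast, Int.cast_one]
    norm_num
  · rw [variableChange_a₂, hu]
    simp only [freyLegVC, freyLike, legCurve, map_a₁, map_a₂, eq_intCast, Int.cast_one]
    rw [h4]; ring
  · rw [variableChange_a₃, hu]
    simp only [freyLegVC, freyLike, legCurve, map_a₁, map_a₃, eq_intCast, Int.cast_one,
      Int.cast_zero]
    norm_num
  · rw [variableChange_a₄, hu]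
    simp only [freyLegVC, freyLike, legCurve, map_a₁, map_a₂, map_a₃, map_a₄, eq_intCast,
      Int.cast_one, Int.cast_zero]
    rw [h4, h16]; ring
  · rw [variableChange_a₆, hu]
    simp only [freyLegVC, freyLike, legCurve, map_a₁, map_a₂, map_a₃, map_a₄, map_a₆,
      eq_intCast, Int.cast_one, Int.cast_zero]
    ring

/-- **(LEG-F')** consequence: a curve isomorphic to `legCurve m n` is isomorphic to the Frey
model. -/
theorem freyLike_of_leg (W : WeierstrassCurve ℚ) (m n : ℤ) (h : IsFreyPair m n)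
    (C : VariableChange ℚ) (hC : C • W = legCurve (m : ℚ) (n : ℚ)) :
    (freyLegVC⁻¹ * C) • W = (freyLike m n).map (Int.castRingHom ℚ) := by
  rw [mul_smul, hC, ← freyLegVC_smul m n h, inv_smul_smul]

end Fermat.Agent.ES12
end MergeWrap_E_S12_Leg_Curve

section MergeWrap_E_S12_Leg_Normal -- from E/S12/Leg/Normal.lean

set_option autoImplicit false

open WeierstrassCurve WeierstrassCurve.Affine

namespace Fermat.Agent.ES12

/-- Normalisation step: `legCurve (d m) (d n)` with `m, n` coprime, `m n (m + n) ≠ 0`,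
`32 ∣ m n (m + n)` is `ℚ`-isomorphic to `legCurve (d' m') (d' n')` with `(m', n')` a Frey pair. -/
theorem leg_normalise (m n d : ℤ) (hcop : IsCoprime m n) (hm : m ≠ 0) (hn : n ≠ 0)
    (hmn : m + n ≠ 0) (h32 : (32 : ℤ) ∣ m * n * (m + n)) (hd : Squarefree d) :
    ∃ m' n' d' : ℤ, IsFreyPair m' n' ∧ Squarefree d' ∧
      ∃ C : VariableChange ℚ, C • legCurve ((d * m : ℤ) : ℚ) ((d * n : ℤ) : ℚ)
        = legCurve ((d' * m' : ℤ) : ℚ) ((d' * n' : ℤ) : ℚ) := by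
  rcases leg_dvd_cases m n hcop h32 with h | h | h
  · -- `32 ∣ m`: swap
    obtain ⟨m', n', d', hF, hd', h1, h2⟩ :=
      leg_exists_freyPair (-n) (-m) d hcop.symm.neg_neg (neg_ne_zero.mpr hn) (neg_ne_zero.mpr hm)
        (by intro h0; apply hmn; linarith) ((dvd_neg).mpr h) hd
    refine ⟨m', n', d', hF, hd', 1, ?_⟩
    rw [one_smul, h1, h2, legCurve_swap]
    congr 1 <;> push_cast <;> ring
  · -- `32 ∣ n`
    obtain ⟨m', n', d', hF, hd', h1, h2⟩ := leg_exists_freyPair m n d hcop hm hn hmn h hd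
    exact ⟨m', n', d', hF, hd', 1, by rw [one_smul, h1, h2]⟩
  · -- `32 ∣ m + n`: shift by the root `d m`
    have hcop' : IsCoprime (-m) (m + n) := by
      have : IsCoprime m (m + n) := by
        have := hcop.add_mul_left_right 1
        simpa [add_comm] using this
      exact this.neg_left
    obtain ⟨m', n', d', hF, hd', h1, h2⟩ :=
      leg_exists_freyPair (-m) (m + n) d hcop' (neg_ne_zero.mpr hm) hmn
        (by intro h0; apply hn; linarith) h hd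
    refine ⟨m', n', d', hF, hd', ⟨1, ((d * m : ℤ) : ℚ), 0, 0⟩, ?_⟩
    rw [legCurve_shift, h1, h2]
    congr 1 <;> push_cast <;> ring

/-- **(LEG), root form.**  `W` over `ℚ` elliptic, `v₂ (j) < 0` (stated as
`3 v₂ (c₄) < v₂ (Δ)`, `c₄ ≠ 0`), and the `2`-division cubic `4 x³ + b₂ x² + 2 b₄ x + b₆` splits
over `ℚ` as `4 (x − e₁) (x − e₂) (x − e₃)`.  Then `W ≅_ℚ legCurve (d m) (d n)` with `(m, n)` a Frey
pair and `d` squarefree. -/
theorem leg_normal_form_aux (W : WeierstrassCurve ℚ) (hΔ : W.Δ ≠ 0) (hc₄ : W.c₄ ≠ 0)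
    (hj : 3 * padicValRat 2 W.c₄ < padicValRat 2 W.Δ)
    (e₁ e₂ e₃ : ℚ)
    (h₂ : W.b₂ = -4 * (e₁ + e₂ + e₃))
    (h₄ : W.b₄ = 2 * (e₁ * e₂ + e₁ * e₃ + e₂ * e₃))
    (h₆ : W.b₆ = -4 * (e₁ * e₂ * e₃)) :
    ∃ m n d : ℤ, IsFreyPair m n ∧ Squarefree d ∧
      ∃ C : VariableChange ℚ, C • W = legCurve ((d * m : ℤ) : ℚ) ((d * n : ℤ) : ℚ) := by
  -- step 1: Legendre form with rational parameters
  set C₁ : VariableChange ℚ := ⟨1, e₁, -W.a₁ / 2, -(W.a₁ * e₁ + W.a₃) / 2⟩ with hC₁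
  have h1 : C₁ • W = legCurve (e₂ - e₁) (e₁ - e₃) := legCurve_of_roots W e₁ e₂ e₃ h₂ h₄ h₆
  have hΔ1 : (legCurve (e₂ - e₁) (e₁ - e₃)).Δ ≠ 0 := by
    rw [← h1, variableChange_Δ]
    exact mul_ne_zero (pow_ne_zero _ (Units.ne_zero _)) hΔ
  rw [legCurve_Δ] at hΔ1
  have hM : e₂ - e₁ ≠ 0 := by
    intro h0; apply hΔ1; rw [h0]; ring
  -- step 2: scaling
  obtain ⟨u, d, m, n, hu, hd, hcop, hMu, hNu⟩ := leg_exists_scale (e₂ - e₁) (e₁ - e₃) hM
  set C₂ : VariableChange ℚ := ⟨Units.mk0 u hu, 0, 0, 0⟩ with hC₂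
  have h2 : C₂ • legCurve (e₂ - e₁) (e₁ - e₃)
      = legCurve ((d * m : ℤ) : ℚ) ((d * n : ℤ) : ℚ) := by
    rw [hMu, hNu]
    exact legCurve_scale (Units.mk0 u hu) _ _
  have h12 : (C₂ * C₁) • W = legCurve ((d * m : ℤ) : ℚ) ((d * n : ℤ) : ℚ) := by
    rw [mul_smul, h1, h2]
  -- nonvanishing
  have hd0 : d ≠ 0 := hd.ne_zero
  have hΔ2 : (legCurve ((d * m : ℤ) : ℚ) ((d * n : ℤ) : ℚ)).Δ ≠ 0 := by
    rw [← h12, variableChange_Δ]
    exact mul_ne_zero (pow_ne_zero _ (Units.ne_zero _)) hΔ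
  have hc₄2 : (legCurve ((d * m : ℤ) : ℚ) ((d * n : ℤ) : ℚ)).c₄ ≠ 0 := by
    rw [← h12, variableChange_c₄]
    exact mul_ne_zero (pow_ne_zero _ (Units.ne_zero _)) hc₄
  have hm : m ≠ 0 := by
    rintro rfl; apply hΔ2; rw [legCurve_Δ]; push_cast; ring
  have hn : n ≠ 0 := by
    rintro rfl; apply hΔ2; rw [legCurve_Δ]; push_cast; ring
  have hmn : m + n ≠ 0 := by
    intro h0; apply hΔ2; rw [legCurve_Δ]
    have : ((d * m : ℤ) : ℚ) + ((d * n : ℤ) : ℚ) = 0 := by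
      have : (d * m + d * n : ℤ) = 0 := by rw [← mul_add, h0, mul_zero]
      exact_mod_cast this
    rw [this]; ring
  have hQ : m ^ 2 + m * n + n ^ 2 ≠ 0 := by
    intro h0; apply hc₄2; rw [legCurve_c₄]
    have : ((d * m : ℤ) : ℚ) ^ 2 + ((d * m : ℤ) : ℚ) * ((d * n : ℤ) : ℚ) + ((d * n : ℤ) : ℚ) ^ 2
        = ((d ^ 2 * (m ^ 2 + m * n + n ^ 2) : ℤ) : ℚ) := by push_cast; ring
    rw [this, h0]; simp
  have hP : m * n * (m + n) ≠ 0 := mul_ne_zero (mul_ne_zero hm hn) hmn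
  -- step 3: valuations
  have hv : (((C₂ * C₁).u⁻¹ : ℚˣ) : ℚ) ≠ 0 := Units.ne_zero _
  set v : ℚ := (((C₂ * C₁).u⁻¹ : ℚˣ) : ℚ) with hvdef
  have hc : v ^ 4 * W.c₄ = 16 * (d : ℚ) ^ 2 * ((m ^ 2 + m * n + n ^ 2 : ℤ) : ℚ) := by
    have := variableChange_c₄ W (C₂ * C₁)
    rw [h12, legCurve_c₄] at this
    rw [← hvdef] at this
    rw [← this]; push_cast; ring
  have hD : v ^ 12 * W.Δ = 16 * (d : ℚ) ^ 6 * ((m * n * (m + n) : ℤ) : ℚ) ^ 2 := by
    have := variableChange_Δ W (C₂ * C₁)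
    rw [h12, legCurve_Δ] at this
    rw [← hvdef] at this
    rw [← this]; push_cast; ring
  have hdQ : (d : ℚ) ≠ 0 := by exact_mod_cast hd0
  have key : W.c₄ ^ 3 * ((m * n * (m + n) : ℤ) : ℚ) ^ 2
      = 256 * ((m ^ 2 + m * n + n ^ 2 : ℤ) : ℚ) ^ 3 * W.Δ := by
    have hne : v ^ 12 * (d : ℚ) ^ 6 ≠ 0 := mul_ne_zero (pow_ne_zero _ hv) (pow_ne_zero _ hdQ)
    apply mul_left_cancel₀ hne
    linear_combination
      ((d : ℚ) ^ 6 * ((m * n * (m + n) : ℤ) : ℚ) ^ 2 *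
        ((v ^ 4 * W.c₄) ^ 2 + (v ^ 4 * W.c₄) * (16 * (d : ℚ) ^ 2 * ((m ^ 2 + m * n + n ^ 2 : ℤ) : ℚ))
          + (16 * (d : ℚ) ^ 2 * ((m ^ 2 + m * n + n ^ 2 : ℤ) : ℚ)) ^ 2)) * hc
      - (256 * ((m ^ 2 + m * n + n ^ 2 : ℤ) : ℚ) ^ 3 * (d : ℚ) ^ 6) * hD
  have h32 : (32 : ℤ) ∣ m * n * (m + n) :=
    leg_thirtytwo_dvd (m * n * (m + n)) (m ^ 2 + m * n + n ^ 2) W.c₄ W.Δ hc₄ hΔ hP hQ key hj
  -- step 4: normalisation
  obtain ⟨m', n', d', hF, hd', C₃, h3⟩ := leg_normalise m n d hcop hm hn hmn h32 hd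
  exact ⟨m', n', d', hF, hd', C₃ * (C₂ * C₁), by rw [mul_smul, h12, h3]⟩

end Fermat.Agent.ES12
end MergeWrap_E_S12_Leg_Normal

section MergeWrap_E_S12_Leg_Roots -- from E/S12/Leg/Roots.lean

set_option autoImplicit false

open WeierstrassCurve WeierstrassCurve.Affine Polynomial

namespace Fermat.Agent.ES12

/-- An element of `Q̄` fixed by `G_ℚ` is rational. -/
theorem leg_exists_rat_of_fixed (x : Qb) (hx : ∀ σ : GQ, σ x = x) :
    ∃ r : ℚ, algebraMap ℚ Qb r = x := by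
  have h1 : Algebra.IsAlgebraic ℚ (AlgebraicClosure ℚ) := AlgebraicClosure.isAlgebraic ℚ
  have h2 : IsAlgClosure ℚ (AlgebraicClosure ℚ) := ⟨inferInstance, h1⟩
  have h3 : IsGalois ℚ (AlgebraicClosure ℚ) := IsAlgClosure.isGalois ℚ (AlgebraicClosure ℚ)
  exact (InfiniteGalois.mem_range_algebraMap_iff_fixed (k := ℚ) (K := AlgebraicClosure ℚ) x).mpr hx

/-- The `2`-division cubic. -/
noncomputable def legCubic (W : WeierstrassCurve ℚ) : ℚ[X] :=
  C 4 * X ^ 3 + C W.b₂ * X ^ 2 + C (2 * W.b₄) * X + C W.b₆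

theorem legCubic_natDegree (W : WeierstrassCurve ℚ) : (legCubic W).natDegree = 3 := by
  unfold legCubic
  compute_degree!

theorem legCubic_leadingCoeff (W : WeierstrassCurve ℚ) : (legCubic W).leadingCoeff = 4 := by
  rw [leadingCoeff, legCubic_natDegree]
  unfold legCubic
  simp

/-- A root of the `2`-division cubic over `Q̄` is the `x`-coordinate of a `2`-torsion point, so
it is rational if the `2`-torsion is Galois-fixed. -/
theorem leg_root_rational (W : WeierstrassCurve ℚ) (hΔ : W.Δ ≠ 0)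
    (h2 : ∀ P : (W⁄Qb).Point, 2 • P = 0 → ∀ σ : GQ, σ • P = P)
    (ε : Qb) (hε : ((legCubic W).map (algebraMap ℚ Qb)).IsRoot ε) :
    ∃ e : ℚ, algebraMap ℚ Qb e = ε := by
  apply leg_exists_rat_of_fixed
  intro σ
  have hroot : 4 * ε ^ 3 + algebraMap ℚ Qb W.b₂ * ε ^ 2 + 2 * algebraMap ℚ Qb W.b₄ * ε
      + algebraMap ℚ Qb W.b₆ = 0 := by
    have := hε
    simp only [legCubic, IsRoot.def, Polynomial.map_add, Polynomial.map_mul, Polynomial.map_pow,
      map_C, map_X, eval_add, eval_mul, eval_pow, eval_C, eval_X, _root_.map_mul] at this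
    rw [map_ofNat, map_ofNat] at this
    linear_combination this
  set y₀ : Qb := -(algebraMap ℚ Qb W.a₁ * ε + algebraMap ℚ Qb W.a₃) / 2 with hy₀
  have heq : (W⁄Qb).toAffine.Equation ε y₀ := by
    rw [Affine.equation_iff]
    simp only [WeierstrassCurve.baseChange, map_a₁, map_a₂, map_a₃, map_a₄, map_a₆]
    simp only [WeierstrassCurve.b₂, WeierstrassCurve.b₄, WeierstrassCurve.b₆, map_add, map_mul,
      map_pow, map_ofNat] at hroot
    rw [hy₀]
    linear_combination (-1 / 4 : Qb) * hroot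
  have hΔ' : (W⁄Qb).Δ ≠ 0 := by
    simp only [WeierstrassCurve.baseChange, map_Δ]
    exact (_root_.map_ne_zero _).mpr hΔ
  have hns : (W⁄Qb).toAffine.Nonsingular ε y₀ :=
    (Affine.equation_iff_nonsingular_of_Δ_ne_zero hΔ').mp heq
  have htors : 2 • (Point.some ε y₀ hns : (W⁄Qb).Point) = 0 := by
    rw [two_nsmul]
    apply Point.add_self_of_Y_eq
    simp only [Affine.negY, WeierstrassCurve.baseChange, map_a₁, map_a₃]
    rw [hy₀]; ring
  have hfix := h2 _ htors σ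
  rw [Point.algEquiv_smul_def] at hfix
  simp only [Point.map_some] at hfix
  have := (Point.some.injEq _ _ _ _ _ _).mp hfix
  exact this.1

/-- **Rational `2`-torsion ⟹ the `2`-division cubic splits over `ℚ`.** -/
theorem leg_roots_of_two_torsion_fixed (W : WeierstrassCurve ℚ) (hΔ : W.Δ ≠ 0)
    (h2 : ∀ P : (W⁄Qb).Point, 2 • P = 0 → ∀ σ : GQ, σ • P = P) :
    ∃ e₁ e₂ e₃ : ℚ, W.b₂ = -4 * (e₁ + e₂ + e₃) ∧
      W.b₄ = 2 * (e₁ * e₂ + e₁ * e₃ + e₂ * e₃) ∧ W.b₆ = -4 * (e₁ * e₂ * e₃) := by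
  set g : Qb[X] := (legCubic W).map (algebraMap ℚ Qb) with hg
  have hdeg : g.natDegree = 3 := by
    rw [hg, natDegree_map, legCubic_natDegree]
  have hlc : g.leadingCoeff = 4 := by
    rw [hg, leadingCoeff_map, legCubic_leadingCoeff]; simp
  have hsplit : g.Splits := IsAlgClosed.splits g
  have hcard : g.roots.card = 3 := by
    rw [← hdeg]; exact (splits_iff_card_roots.mp hsplit)
  obtain ⟨ε₁, ε₂, ε₃, hroots⟩ := Multiset.card_eq_three.mp hcard
  have hprod := C_leadingCoeff_mul_prod_multiset_X_sub_C (hcard.trans hdeg.symm)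
  rw [hroots, hlc] at hprod
  have hmem : ∀ ε ∈ g.roots, ∃ e : ℚ, algebraMap ℚ Qb e = ε := by
    intro ε hε
    exact leg_root_rational W hΔ h2 ε (isRoot_of_mem_roots hε)
  obtain ⟨e₁, he₁⟩ := hmem ε₁ (by rw [hroots]; simp)
  obtain ⟨e₂, he₂⟩ := hmem ε₂ (by rw [hroots]; simp)
  obtain ⟨e₃, he₃⟩ := hmem ε₃ (by rw [hroots]; simp)
  have hpoly : legCubic W = C 4 * ((X - C e₁) * ((X - C e₂) * (X - C e₃))) := by
    apply Polynomial.map_injective (algebraMap ℚ Qb) (algebraMap ℚ Qb).injective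
    rw [← hg, ← hprod]
    simp [he₁, he₂, he₃]
  have h0 := congrArg (eval 0) hpoly
  have h1 := congrArg (eval 1) hpoly
  have hm1 := congrArg (eval (-1)) hpoly
  simp only [legCubic, eval_add, eval_mul, eval_pow, eval_C, eval_X, eval_sub] at h0 h1 hm1
  refine ⟨e₁, e₂, e₃, ?_, ?_, ?_⟩
  · linear_combination (1 / 2 : ℚ) * h1 + (1 / 2 : ℚ) * hm1 - h0
  · linear_combination (1 / 4 : ℚ) * h1 - (1 / 4 : ℚ) * hm1
  · linear_combination h0

end Fermat.Agent.ES12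
end MergeWrap_E_S12_Leg_Roots

section MergeWrap_E_S12_Leg -- from E/S12/Leg.lean

set_option autoImplicit false

open WeierstrassCurve WeierstrassCurve.Affine

namespace Fermat.Agent.ES12

/-- **(LEG), root form.**  `W` over `ℚ` elliptic, `v₂ (j) < 0` (stated as
`3 v₂ (c₄) < v₂ (Δ)`, `c₄ ≠ 0`), and the `2`-division cubic `4 x³ + b₂ x² + 2 b₄ x + b₆` splits
over `ℚ` as `4 (x − e₁) (x − e₂) (x − e₃)`.  Then `W ≅_ℚ legCurve (d m) (d n)` with `(m, n)` a Frey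
pair and `d` squarefree. -/
theorem leg_normal_form (W : WeierstrassCurve ℚ) (hΔ : W.Δ ≠ 0) (hc₄ : W.c₄ ≠ 0)
    (hj : 3 * padicValRat 2 W.c₄ < padicValRat 2 W.Δ)
    (e₁ e₂ e₃ : ℚ)
    (h₂ : W.b₂ = -4 * (e₁ + e₂ + e₃))
    (h₄ : W.b₄ = 2 * (e₁ * e₂ + e₁ * e₃ + e₂ * e₃))
    (h₆ : W.b₆ = -4 * (e₁ * e₂ * e₃)) :
    ∃ m n d : ℤ, IsFreyPair m n ∧ Squarefree d ∧
      ∃ C : VariableChange ℚ, C • W = legCurve ((d * m : ℤ) : ℚ) ((d * n : ℤ) : ℚ) :=
  leg_normal_form_aux W hΔ hc₄ hj e₁ e₂ e₃ h₂ h₄ h₆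

/-- **(LEG), Galois form.**  Same conclusion when all `2`-torsion points of `W (Q̄)` are fixed by
`G_ℚ`. -/
theorem leg_of_two_torsion_fixed (W : WeierstrassCurve ℚ) (hΔ : W.Δ ≠ 0) (hc₄ : W.c₄ ≠ 0)
    (hj : 3 * padicValRat 2 W.c₄ < padicValRat 2 W.Δ)
    (h2 : ∀ P : (W⁄Qb).Point, 2 • P = 0 → ∀ σ : GQ, σ • P = P) :
    ∃ m n d : ℤ, IsFreyPair m n ∧ Squarefree d ∧
      ∃ C : VariableChange ℚ, C • W = legCurve ((d * m : ℤ) : ℚ) ((d * n : ℤ) : ℚ) := by
  obtain ⟨e₁, e₂, e₃, h₂, h₄, h₆⟩ := leg_roots_of_two_torsion_fixed W hΔ h2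
  exact leg_normal_form W hΔ hc₄ hj e₁ e₂ e₃ h₂ h₄ h₆

end Fermat.Agent.ES12
end MergeWrap_E_S12_Leg

section MergeWrap_E_S12_Leg_TwoTorsion -- from E/S12/Leg/TwoTorsion.lean

set_option autoImplicit false

open WeierstrassCurve WeierstrassCurve.Affine

namespace Fermat.Agent.ES12

/-- If the `2`-division cubic of `W` is `4 (x − e₁) (x − e₂) (x − e₃)` over `ℚ`, every
`2`-torsion point of `W (Q̄)` is fixed by `G_ℚ`. -/
theorem leg_two_torsion_fixed_of_roots (W : WeierstrassCurve ℚ) (e₁ e₂ e₃ : ℚ)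
    (h₂ : W.b₂ = -4 * (e₁ + e₂ + e₃))
    (h₄ : W.b₄ = 2 * (e₁ * e₂ + e₁ * e₃ + e₂ * e₃))
    (h₆ : W.b₆ = -4 * (e₁ * e₂ * e₃)) :
    ∀ P : (W⁄Qb).Point, 2 • P = 0 → ∀ σ : GQ, σ • P = P := by
  intro P hP σ
  rcases P with _ | ⟨x, y, h⟩
  · rfl
  · -- `y = negY x y`
    rw [two_nsmul, add_eq_zero_iff_eq_neg, Point.neg_some] at hP
    have hy : y = (W⁄Qb).toAffine.negY x y := ((Point.some.injEq _ _ _ _ _ _).mp hP).2
    have heq := h.1
    rw [Affine.equation_iff] at heq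
    simp only [Affine.negY, WeierstrassCurve.baseChange, map_a₁, map_a₃] at hy
    simp only [WeierstrassCurve.baseChange, map_a₁, map_a₂, map_a₃, map_a₄, map_a₆] at heq
    simp only [WeierstrassCurve.b₂, WeierstrassCurve.b₄, WeierstrassCurve.b₆] at h₂ h₄ h₆
    have h₂' := congrArg (algebraMap ℚ Qb) h₂
    have h₄' := congrArg (algebraMap ℚ Qb) h₄
    have h₆' := congrArg (algebraMap ℚ Qb) h₆
    simp only [map_add, map_mul, map_pow, map_neg, map_ofNat] at h₂' h₄' h₆'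
    set ε₁ := algebraMap ℚ Qb e₁ with hε₁
    set ε₂ := algebraMap ℚ Qb e₂ with hε₂
    set ε₃ := algebraMap ℚ Qb e₃ with hε₃
    set α₁ := algebraMap ℚ Qb W.a₁ with hα₁
    set α₃ := algebraMap ℚ Qb W.a₃ with hα₃
    have hy2 : 2 * y = -(α₁ * x + α₃) := by linear_combination hy
    have hprod : (x - ε₁) * ((x - ε₂) * (x - ε₃)) = 0 := by
      have h4 : (4 : Qb) ≠ 0 := by norm_num
      apply mul_left_cancel₀ h4
      rw [mul_zero]
      linear_combination (-4) * heq + (2 * y + α₁ * x + α₃) * hy2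
        - (x ^ 2) * h₂' - (2 * x) * h₄' - h₆'
    have hx : ∃ e : ℚ, algebraMap ℚ Qb e = x := by
      rcases mul_eq_zero.mp hprod with h1 | h1
      · exact ⟨e₁, (sub_eq_zero.mp h1).symm⟩
      · rcases mul_eq_zero.mp h1 with h1 | h1
        · exact ⟨e₂, (sub_eq_zero.mp h1).symm⟩
        · exact ⟨e₃, (sub_eq_zero.mp h1).symm⟩
    obtain ⟨e, he⟩ := hx
    have hyr : algebraMap ℚ Qb (-(W.a₁ * e + W.a₃) / 2) = y := by
      simp only [map_div₀, map_neg, map_add, map_mul, map_ofNat]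
      rw [he, ← hα₁, ← hα₃]
      have h2 : (2 : Qb) ≠ 0 := by norm_num
      field_simp
      linear_combination -hy2
    have hσx : σ x = x := by rw [← he]; exact σ.commutes e
    have hσy : σ y = y := by rw [← hyr]; exact σ.commutes _
    rw [Point.algEquiv_smul_def, Point.map_some]
    simp only [AlgEquiv.toAlgHom_apply]
    congr 1

/-- The `2`-torsion of the Frey model of a Frey pair is rational. -/
theorem freyLike_two_torsion_fixed (A B : ℤ) (h : IsFreyPair A B) :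
    ∀ P : Pts (freyLike A B), 2 • P = 0 → ∀ σ : GQ, σ • P = P := by
  have h4 : (((B - 1 - A) / 4 : ℤ) : ℚ) = ((B : ℚ) - 1 - A) / 4 := by
    rw [Int.cast_div (four_dvd_of_isFreyPair h) (by norm_num)]
    push_cast; rfl
  have h16 : ((-(A * B) / 16 : ℤ) : ℚ) = -((A : ℚ) * B) / 16 := by
    rw [Int.cast_div (sixteen_dvd_of_isFreyPair h) (by norm_num)]
    push_cast; rfl
  apply leg_two_torsion_fixed_of_roots ((freyLike A B).map (Int.castRingHom ℚ)) 0 ((A : ℚ) / 4)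
    (-(B : ℚ) / 4)
  · simp only [WeierstrassCurve.b₂, freyLike, map_a₁, map_a₂, eq_intCast, Int.cast_one]
    rw [h4]; ring
  · simp only [WeierstrassCurve.b₄, freyLike, map_a₁, map_a₃, map_a₄, eq_intCast, Int.cast_one,
      Int.cast_zero]
    rw [h16]; ring
  · simp only [WeierstrassCurve.b₆, freyLike, map_a₃, map_a₆, eq_intCast, Int.cast_zero]
    ring

/-- Transfer of rational `2`-torsion along a surjective Galois-equivariant homomorphism whose
kernel is killed by an odd number `p`. -/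
theorem leg_two_torsion_fixed_of_hom {W₁ W₂ : WeierstrassCurve ℚ}
    (φ : (W₁⁄Qb).Point →+ (W₂⁄Qb).Point) (hsurj : Function.Surjective φ)
    (hφ : ∀ (σ : GQ) (P : (W₁⁄Qb).Point), φ (σ • P) = σ • φ P)
    (p : ℕ) (hp : Odd p) (hker : ∀ P : (W₁⁄Qb).Point, φ P = 0 → p • P = 0)
    (h : ∀ P : (W₁⁄Qb).Point, 2 • P = 0 → ∀ σ : GQ, σ • P = P) :
    ∀ Q : (W₂⁄Qb).Point, 2 • Q = 0 → ∀ σ : GQ, σ • Q = Q := by
  intro Q hQ σ
  obtain ⟨P, rfl⟩ := hsurj Q
  obtain ⟨k, hk⟩ := hp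
  have h1 : φ (2 • P) = 0 := by rw [map_nsmul, hQ]
  have h2 : 2 • (p • P) = 0 := by
    rw [smul_comm]; exact hker _ h1
  have h3 : φ (p • P) = φ P := by
    rw [map_nsmul, hk, add_smul, mul_smul, one_smul, smul_comm, hQ, nsmul_zero, zero_add]
  rw [← h3, ← hφ, h _ h2 σ]

end Fermat.Agent.ES12
end MergeWrap_E_S12_Leg_TwoTorsion

section MergeWrap_E_S12_Twist_Defs -- from E/S12/Twist/Defs.lean

set_option autoImplicit false

open WeierstrassCurve WeierstrassCurve.Affine WeierstrassCurve.Affine.Point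

noncomputable section

namespace Fermat.Agent.ES12

/-- The quadratic twist by `d` of `y² = x³ + a₂ x² + a₄ x + a₆`. -/
def quadTwist (W : WeierstrassCurve ℚ) (d : ℚ) : WeierstrassCurve ℚ where
  a₁ := 0
  a₂ := d * W.a₂
  a₃ := 0
  a₄ := d ^ 2 * W.a₄
  a₆ := d ^ 3 * W.a₆

/-- The inertia group at `A` acts unipotently on the `m`-torsion of `W` over `Q̄`. -/
def UnipAt (W : WeierstrassCurve ℚ) (A : ValuationSubring Qb) (m : ℕ) : Prop :=
  ∀ σ ∈ A.inertiaSubgroupIn ℚ, ∀ P : (W⁄Qb).Point, m • P = 0 →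
    σ • (σ • P) - 2 • (σ • P) + P = 0

end Fermat.Agent.ES12
end
end MergeWrap_E_S12_Twist_Defs

section MergeWrap_Lib_Minkowski_SubgroupForm -- from Lib/Minkowski/SubgroupForm.lean

set_option autoImplicit false

/-!
# Minkowski bridge, subgroup form

An open normal subgroup of `Gal(ℚ̄/ℚ)` containing (one) inertia group above every rational prime
is the whole group.
-/

namespace Fermat.Agent.Minkowski

/-- **Minkowski, subgroup form.** -/
theorem minkowski_subgroup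
    (H : Subgroup (AlgebraicClosure ℚ ≃ₐ[ℚ] AlgebraicClosure ℚ)) (hH : H.Normal)
    (hopen : IsOpen (H : Set (AlgebraicClosure ℚ ≃ₐ[ℚ] AlgebraicClosure ℚ)))
    (hunr : ∀ q : ℕ, q.Prime → ∃ A : ValuationSubring (AlgebraicClosure ℚ),
      A.LiesOverPrime q ∧ ∀ σ ∈ A.inertiaSubgroupIn ℚ, σ ∈ H) :
    H = ⊤ := by
  have := hH
  have hker : (QuotientGroup.mk' H).ker = H := QuotientGroup.ker_mk' H
  have key := minkowski_bridge (QuotientGroup.mk' H) (by rw [hker]; exact hopen)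
    (fun q hq => by
      obtain ⟨A, hA, h⟩ := hunr q hq
      refine ⟨A, hA, fun σ hσ => ?_⟩
      have : σ ∈ (QuotientGroup.mk' H).ker := by rw [hker]; exact h σ hσ
      exact this)
  rw [eq_top_iff]
  intro σ _
  have : σ ∈ (QuotientGroup.mk' H).ker := key σ
  rwa [hker] at this

end Fermat.Agent.Minkowski
end MergeWrap_Lib_Minkowski_SubgroupForm

section MergeWrap_E_S12_Twist_Char -- from E/S12/Twist/Char.lean

set_option autoImplicit false

noncomputable section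

namespace Fermat.Agent.ES12

open IntermediateField

/-- a conjugate of a square root of a rational number is `± ` that root. -/
theorem tw_smul_sqrt {s : Qb} {d : ℚ} (hs : s ^ 2 = algebraMap ℚ Qb d) (σ : GQ) :
    σ s = s ∨ σ s = -s := by
  have h : (σ s) ^ 2 = s ^ 2 := by
    rw [← map_pow, hs, AlgEquiv.commutes]
  exact sq_eq_sq_iff_eq_or_eq_neg.mp h

/-- the stabilizer of a square root of a rational number. -/
def twStab (s : Qb) : Subgroup GQ where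
  carrier := {σ | σ s = s}
  one_mem' := rfl
  mul_mem' := by
    intro σ τ hσ hτ
    show σ (τ s) = s
    rw [hτ, hσ]
  inv_mem' := by
    intro σ hσ
    show σ⁻¹ s = s
    conv_lhs => rw [← hσ]
    exact σ.symm_apply_apply s

theorem mem_twStab {s : Qb} {σ : GQ} : σ ∈ twStab s ↔ σ s = s := Iff.rfl

theorem twStab_normal {s : Qb} {d : ℚ} (hs : s ^ 2 = algebraMap ℚ Qb d) : (twStab s).Normal := by
  constructor
  intro σ hσ τ
  rw [mem_twStab] at hσ ⊢
  show τ (σ (τ⁻¹ s)) = s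
  have key : σ (τ⁻¹ s) = τ⁻¹ s := by
    rcases tw_smul_sqrt hs τ⁻¹ with h | h
    · rw [h, hσ]
    · rw [h, map_neg, hσ]
  rw [key]
  exact τ.apply_symm_apply s

theorem twStab_isOpen (s : Qb) : IsOpen (twStab s : Set GQ) := by
  have hint : IsIntegral ℚ s := (AlgebraicClosure.isAlgebraic ℚ).isIntegral.isIntegral s
  have : FiniteDimensional ℚ ℚ⟮s⟯ := adjoin.finiteDimensional hint
  have hopen : IsOpen ((ℚ⟮s⟯).fixingSubgroup : Set GQ) := fixingSubgroup_isOpen ℚ⟮s⟯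
  refine Subgroup.isOpen_mono (H₁ := (ℚ⟮s⟯).fixingSubgroup) ?_ hopen
  intro σ hσ
  rw [mem_twStab]
  exact (IntermediateField.mem_fixingSubgroup_iff ℚ⟮s⟯ σ).mp hσ s (mem_adjoin_simple_self ℚ s)

/-- **Minkowski for a quadratic character**: if one inertia group over each prime fixes the square
root `s` of a rational number, then `s` is rational. -/
theorem tw_sqrt_rational {s : Qb} {d : ℚ} (hs : s ^ 2 = algebraMap ℚ Qb d)
    (hunr : ∀ q : ℕ, q.Prime → ∃ A : ValuationSubring Qb,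
      A.LiesOverPrime q ∧ ∀ σ ∈ A.inertiaSubgroupIn ℚ, σ s = s) :
    ∃ r : ℚ, algebraMap ℚ Qb r = s := by
  have htop : twStab s = ⊤ :=
    Fermat.Agent.Minkowski.minkowski_subgroup (twStab s) (twStab_normal hs) (twStab_isOpen s) hunr
  have hfix : ∀ σ : GQ, σ s = s := fun σ => by
    have : σ ∈ twStab s := by rw [htop]; exact Subgroup.mem_top σ
    exact this
  have : Algebra.IsAlgebraic ℚ Qb := AlgebraicClosure.isAlgebraic ℚ
  have : IsAlgClosure ℚ Qb := ⟨inferInstance, inferInstance⟩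
  have hGal : IsGalois ℚ Qb := inferInstance
  exact (InfiniteGalois.mem_range_algebraMap_iff_fixed s).mpr hfix

/-- a squarefree integer which is a square of a rational number is `1`. -/
theorem tw_eq_one_of_sq {d : ℤ} (hd : Squarefree d) {r : ℚ} (hr : r ^ 2 = (d : ℚ)) : d = 1 := by
  -- `r` is an integer
  have hint : IsIntegral ℤ r := by
    refine ⟨Polynomial.X ^ 2 - Polynomial.C d, Polynomial.monic_X_pow_sub_C d (by norm_num), ?_⟩
    rw [Polynomial.eval₂_sub, Polynomial.eval₂_X_pow, Polynomial.eval₂_C, hr]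
    simp
  obtain ⟨n, hn⟩ := IsIntegrallyClosed.isIntegral_iff.mp hint
  have hn' : (n : ℚ) = r := by simpa using hn
  have hd2 : d = n ^ 2 := by
    have : ((n ^ 2 : ℤ) : ℚ) = (d : ℚ) := by rw [← hr, ← hn']; push_cast; ring
    exact_mod_cast this.symm
  have hunit : IsUnit n := hd n (by rw [hd2, sq])
  rw [hd2]
  rcases Int.isUnit_iff.mp hunit with h | h <;> rw [h] <;> norm_num

end Fermat.Agent.ES12
end
end MergeWrap_E_S12_Twist_Char

section MergeWrap_E_S12_Twist_Map -- from E/S12/Twist/Map.lean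

set_option autoImplicit false

open WeierstrassCurve WeierstrassCurve.Affine WeierstrassCurve.Affine.Point

noncomputable section

namespace Fermat.Agent.ES12

open Fermat.Agent.VarChange

variable (W : WeierstrassCurve ℚ) (d : ℚ) {s : Qb}

theorem tw_sqrt_ne_zero (hd : d ≠ 0) (hs : s ^ 2 = algebraMap ℚ Qb d) : s ≠ 0 := by
  rintro rfl
  rw [zero_pow (by norm_num)] at hs
  exact hd ((map_eq_zero _).mp hs.symm)

/-- the change of variables `u = 1 / √d`. -/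
def twVC (hd : d ≠ 0) (hs : s ^ 2 = algebraMap ℚ Qb d) : VariableChange Qb where
  u := (Units.mk0 s (tw_sqrt_ne_zero d hd hs))⁻¹
  r := 0
  s := 0
  t := 0

theorem twVC_u (hd : d ≠ 0) (hs : s ^ 2 = algebraMap ℚ Qb d) :
    ((twVC d hd hs).u : Qb) = s⁻¹ := rfl

theorem twVC_u_inv (hd : d ≠ 0) (hs : s ^ 2 = algebraMap ℚ Qb d) :
    (((twVC d hd hs).u⁻¹ : Qbˣ) : Qb) = s := by
  simp [twVC]

variable {W}

/-- over `Q̄` the twist is a change of variables of `W`. -/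
theorem tw_baseChange_eq (ha₁ : W.a₁ = 0) (ha₃ : W.a₃ = 0) (hd : d ≠ 0)
    (hs : s ^ 2 = algebraMap ℚ Qb d) :
    (Affine.baseChange (quadTwist W d) Qb : Affine Qb) =
      twVC d hd hs • (Affine.baseChange W Qb : Affine Qb) := by
  change (quadTwist W d).map (algebraMap ℚ Qb) = twVC d hd hs • W.map (algebraMap ℚ Qb)
  have h4 : s ^ 4 = algebraMap ℚ Qb d ^ 2 := by rw [← hs]; ring
  have h6 : s ^ 6 = algebraMap ℚ Qb d ^ 3 := by rw [← hs]; ring
  ext
  · rw [variableChange_a₁]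
    simp [quadTwist, twVC, ha₁]
  · rw [variableChange_a₂, twVC_u_inv]
    simp [quadTwist, twVC, ha₁, hs]
  · rw [variableChange_a₃]
    simp [quadTwist, twVC, ha₁, ha₃]
  · rw [variableChange_a₄, twVC_u_inv]
    simp [quadTwist, twVC, ha₁, ha₃, h4]
  · rw [variableChange_a₆, twVC_u_inv]
    simp [quadTwist, twVC, ha₁, ha₃, h6]

/-- the twist map. -/
def twMap (ha₁ : W.a₁ = 0) (ha₃ : W.a₃ = 0) (hd : d ≠ 0) (hs : s ^ 2 = algebraMap ℚ Qb d) :
    ((quadTwist W d)⁄Qb).Point →+ (W⁄Qb).Point :=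
  vcHom (twVC d hd hs) (tw_baseChange_eq d ha₁ ha₃ hd hs)

theorem twMap_injective (ha₁ : W.a₁ = 0) (ha₃ : W.a₃ = 0) (hd : d ≠ 0)
    (hs : s ^ 2 = algebraMap ℚ Qb d) : Function.Injective (twMap d ha₁ ha₃ hd hs) :=
  vcHom_injective _ _

theorem twMap_some (ha₁ : W.a₁ = 0) (ha₃ : W.a₃ = 0) (hd : d ≠ 0)
    (hs : s ^ 2 = algebraMap ℚ Qb d) {x y : Qb} (h : ((quadTwist W d)⁄Qb).Nonsingular x y) :
    twMap d ha₁ ha₃ hd hs (.some x y h) =
      .some (vcX (twVC d hd hs) x) (vcY (twVC d hd hs) x y)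
        (vc_nonsingular_of_eq (twVC d hd hs) (tw_baseChange_eq d ha₁ ha₃ hd hs) h) := rfl

theorem tw_vcX (hd : d ≠ 0) (hs : s ^ 2 = algebraMap ℚ Qb d) (x : Qb) :
    vcX (twVC d hd hs) x = (s⁻¹) ^ 2 * x := by
  simp [vcX, twVC]

theorem tw_vcY (hd : d ≠ 0) (hs : s ^ 2 = algebraMap ℚ Qb d) (x y : Qb) :
    vcY (twVC d hd hs) x y = (s⁻¹) ^ 3 * y := by
  simp [vcY, twVC]

/-- Galois fixes the twist map if it fixes `√d`. -/
theorem smul_twMap_of_fixed (ha₁ : W.a₁ = 0) (ha₃ : W.a₃ = 0) (hd : d ≠ 0)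
    (hs : s ^ 2 = algebraMap ℚ Qb d) {σ : GQ} (hσ : σ s = s)
    (P : ((quadTwist W d)⁄Qb).Point) :
    σ • twMap d ha₁ ha₃ hd hs P = twMap d ha₁ ha₃ hd hs (σ • P) := by
  rcases P with _ | ⟨x, y, h⟩
  · rfl
  · rw [algEquiv_smul_def, algEquiv_smul_def, twMap_some, Point.map_some, Point.map_some,
      twMap_some]
    simp only [Point.some.injEq, tw_vcX, tw_vcY]
    constructor
    · show σ (s⁻¹ ^ 2 * x) = s⁻¹ ^ 2 * σ x
      rw [map_mul, map_pow, map_inv₀, hσ]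
    · show σ (s⁻¹ ^ 3 * y) = s⁻¹ ^ 3 * σ y
      rw [map_mul, map_pow, map_inv₀, hσ]

/-- Galois anticommutes with the twist map if it moves `√d`. -/
theorem smul_twMap_of_neg (ha₁ : W.a₁ = 0) (ha₃ : W.a₃ = 0) (hd : d ≠ 0)
    (hs : s ^ 2 = algebraMap ℚ Qb d) {σ : GQ} (hσ : σ s = -s)
    (P : ((quadTwist W d)⁄Qb).Point) :
    σ • twMap d ha₁ ha₃ hd hs P = -twMap d ha₁ ha₃ hd hs (σ • P) := by
  rcases P with _ | ⟨x, y, h⟩
  · rfl
  · rw [algEquiv_smul_def, algEquiv_smul_def, twMap_some, Point.map_some, Point.map_some,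
      twMap_some, Point.neg_some]
    simp only [Point.some.injEq, tw_vcX, tw_vcY]
    constructor
    · show σ (s⁻¹ ^ 2 * x) = s⁻¹ ^ 2 * σ x
      rw [map_mul, map_pow, map_inv₀, hσ]
      ring
    · show σ (s⁻¹ ^ 3 * y) = (W⁄Qb).negY (s⁻¹ ^ 2 * σ x) (s⁻¹ ^ 3 * σ y)
      have h1 : (W⁄Qb).a₁ = 0 := by
        show algebraMap ℚ Qb W.a₁ = 0
        rw [ha₁, _root_.map_zero]
      have h3 : (W⁄Qb).a₃ = 0 := by
        show algebraMap ℚ Qb W.a₃ = 0
        rw [ha₃, _root_.map_zero]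
      rw [Affine.negY, h1, h3, map_mul, map_pow, map_inv₀, hσ]
      have hs0 := tw_sqrt_ne_zero d hd hs
      field_simp
      ring

end Fermat.Agent.ES12
end
end MergeWrap_E_S12_Twist_Map

section MergeWrap_E_S12_Twist -- from E/S12/Twist.lean

set_option autoImplicit false

open WeierstrassCurve WeierstrassCurve.Affine WeierstrassCurve.Affine.Point

noncomputable section

namespace Fermat.Agent.ES12

theorem quadTwist_Δ (W : WeierstrassCurve ℚ) (ha₁ : W.a₁ = 0) (ha₃ : W.a₃ = 0) (d : ℚ) :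
    (quadTwist W d).Δ = d ^ 6 * W.Δ := by
  simp only [WeierstrassCurve.Δ, WeierstrassCurve.b₂, WeierstrassCurve.b₄, WeierstrassCurve.b₆,
    WeierstrassCurve.b₈, quadTwist, ha₁, ha₃]
  ring

theorem tw_baseChange_Δ_ne_zero {W : WeierstrassCurve ℚ} (hΔ : W.Δ ≠ 0) :
    (Affine.baseChange W Qb : Affine Qb).Δ ≠ 0 := by
  change (W.map (algebraMap ℚ Qb)).Δ ≠ 0
  rw [WeierstrassCurve.map_Δ]
  exact fun h => hΔ ((map_eq_zero _).mp h)

/-- a point killed by `4` and by an odd number is zero. -/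
theorem tw_eq_zero_of_four {X : Type*} [AddCommGroup X] {m : ℕ} (hm : Odd m) {P : X}
    (h4 : (4 : ℕ) • P = 0) (hmP : m • P = 0) : P = 0 := by
  have hcop : Nat.Coprime 4 m := by
    have h2 : Nat.Coprime 2 m := Nat.coprime_two_left.mpr hm
    exact Nat.Coprime.pow_left 2 h2
  have h1 : addOrderOf P ∣ 4 := addOrderOf_dvd_of_nsmul_eq_zero h4
  have h2 : addOrderOf P ∣ m := addOrderOf_dvd_of_nsmul_eq_zero hmP
  have h3 : addOrderOf P = 1 := Nat.eq_one_of_dvd_coprimes hcop h1 h2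
  exact AddMonoid.addOrderOf_eq_one_iff.mp h3

/-- **Key step**: an inertia element acting unipotently on the odd `m`-torsion of `W` and of its
twist by `d` fixes `√d`. -/
theorem tw_fixed_of_unip {W : WeierstrassCurve ℚ} (ha₁ : W.a₁ = 0) (ha₃ : W.a₃ = 0)
    (hΔ : W.Δ ≠ 0) (d : ℚ) (hd : d ≠ 0) {s : Qb} (hs : s ^ 2 = algebraMap ℚ Qb d)
    (A : ValuationSubring Qb) {m : ℕ} (hm : Odd m) (hm1 : 1 < m)
    (h1 : UnipAt W A m) (h2 : UnipAt (quadTwist W d) A m)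
    (σ : GQ) (hσ : σ ∈ A.inertiaSubgroupIn ℚ) : σ s = s := by
  rcases tw_smul_sqrt hs σ with h | hneg
  · exact h
  exfalso
  -- a nonzero `m`-torsion point of the twist
  have hΔd : (quadTwist W d).Δ ≠ 0 := by
    rw [quadTwist_Δ W ha₁ ha₃]
    exact mul_ne_zero (pow_ne_zero 6 hd) hΔ
  have hnt := Fermat.Agent.Torsion.nontrivial_torsionBy
    (W := (Affine.baseChange (quadTwist W d) Qb : Affine Qb)) (tw_baseChange_Δ_ne_zero hΔd)
    (n := m) (by omega)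
  obtain ⟨⟨P', hP'mem⟩, hP'ne⟩ := exists_ne (0 : Submodule.torsionBy ℤ
    ((quadTwist W d)⁄Qb).Point (m : ℤ))
  have hP'0 : P' ≠ 0 := fun h => hP'ne (Subtype.ext h)
  have hmP' : m • P' = 0 := by
    rw [Submodule.mem_torsionBy_iff, natCast_zsmul] at hP'mem
    exact hP'mem
  set ψ := twMap d ha₁ ha₃ hd hs with hψ
  have hinj : Function.Injective ψ := twMap_injective d ha₁ ha₃ hd hs
  have hanti : ∀ Q, σ • ψ Q = -ψ (σ • Q) := smul_twMap_of_neg d ha₁ ha₃ hd hs hneg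
  -- unipotency on `W` at `ψ P'`
  have hmP : m • ψ P' = 0 := by rw [← map_nsmul, hmP', _root_.map_zero]
  have e1 := h1 σ hσ (ψ P') hmP
  have e2 := h2 σ hσ P' hmP'
  have hσσ : σ • (σ • ψ P') = ψ (σ • (σ • P')) := by
    rw [hanti, smul_neg, hanti, neg_neg]
  rw [hσσ, hanti] at e1
  have e1' : ψ (σ • (σ • P') + 2 • (σ • P') + P') = 0 := by
    rw [map_add, map_add, map_nsmul]
    rw [← e1]
    abel
  have e1'' : σ • (σ • P') + 2 • (σ • P') + P' = 0 :=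
    hinj (e1'.trans (_root_.map_zero ψ).symm)
  have h4 : (4 : ℕ) • (σ • P') = 0 := by
    have : (4 : ℕ) • (σ • P') =
        (σ • (σ • P') + 2 • (σ • P') + P') - (σ • (σ • P') - 2 • (σ • P') + P') := by
      abel
    rw [this, e1'', e2, sub_zero]
  have hmσ : m • (σ • P') = 0 := by
    have h := map_nsmul (DistribSMul.toAddMonoidHom ((quadTwist W d)⁄Qb).Point σ) m P'
    rw [hmP', _root_.map_zero] at h
    exact h.symm
  have hσP' : σ • P' = 0 := tw_eq_zero_of_four hm h4 hmσ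
  have : P' = 0 := by
    have h := congrArg (fun Q => σ⁻¹ • Q) hσP'
    simp only [inv_smul_smul] at h
    exact h
  exact hP'0 this

/-- **(TW)** a quadratic twist by a squarefree integer `d`, with unipotent inertia on some odd
torsion level of both curves at every prime, is trivial: `d = 1`. -/
theorem quadTwist_trivial (W : WeierstrassCurve ℚ) (ha₁ : W.a₁ = 0) (ha₃ : W.a₃ = 0)
    (hΔ : W.Δ ≠ 0) (d : ℤ) (hd : Squarefree d)
    (hunip : ∀ l : ℕ, l.Prime → ∃ A : ValuationSubring Qb, A.LiesOverPrime l ∧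
      ∃ m : ℕ, Odd m ∧ 1 < m ∧ UnipAt W A m ∧ UnipAt (quadTwist W (d : ℚ)) A m) :
    d = 1 := by
  have hd0 : (d : ℚ) ≠ 0 := by exact_mod_cast hd.ne_zero
  obtain ⟨s, hs⟩ := IsAlgClosed.exists_pow_nat_eq (algebraMap ℚ Qb (d : ℚ)) (n := 2) (by norm_num)
  obtain ⟨r, hr⟩ := tw_sqrt_rational hs fun l hl => by
    obtain ⟨A, hA, m, hm, hm1, h1, h2⟩ := hunip l hl
    exact ⟨A, hA, fun σ hσ => tw_fixed_of_unip ha₁ ha₃ hΔ (d : ℚ) hd0 hs A hm hm1 h1 h2 σ hσ⟩
  refine tw_eq_one_of_sq hd (r := r) ?_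
  apply (algebraMap ℚ Qb).injective
  rw [map_pow, hr, hs]

/-- Transfer of unipotency along a Galois-equivariant homomorphism which is injective on the
`m`-torsion (e.g. an isogeny of degree prime to `m`, or an isomorphism over `ℚ`). -/
theorem unipAt_of_hom {W₁ W₂ : WeierstrassCurve ℚ} (hΔ₁ : W₁.Δ ≠ 0) (hΔ₂ : W₂.Δ ≠ 0)
    (φ : (W₁⁄Qb).Point →+ (W₂⁄Qb).Point) (hφ : ∀ (σ : GQ) (P : (W₁⁄Qb).Point), φ (σ • P) = σ • φ P)
    {m : ℕ} (hm : 0 < m) (hker : ∀ P : (W₁⁄Qb).Point, m • P = 0 → φ P = 0 → P = 0)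
    (A : ValuationSubring Qb) (h : UnipAt W₁ A m) : UnipAt W₂ A m := by
  -- `φ` restricted to the `m`-torsion
  let T₁ := Submodule.torsionBy ℤ (W₁⁄Qb).Point (m : ℤ)
  let T₂ := Submodule.torsionBy ℤ (W₂⁄Qb).Point (m : ℤ)
  have hmem : ∀ P : (W₁⁄Qb).Point, P ∈ T₁ → φ P ∈ T₂ := by
    intro P hP
    rw [Submodule.mem_torsionBy_iff] at hP ⊢
    rw [← map_zsmul, hP, _root_.map_zero]
  let f : T₁ → T₂ := fun P => ⟨φ P.1, hmem P.1 P.2⟩
  have hfinj : Function.Injective f := by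
    intro P Q hPQ
    have h1 : φ P.1 = φ Q.1 := congrArg Subtype.val hPQ
    have h2 : φ (P.1 - Q.1) = 0 := by rw [map_sub, h1, sub_self]
    have h3 : m • (P.1 - Q.1) = 0 := by
      have hP := P.2
      have hQ := Q.2
      rw [Submodule.mem_torsionBy_iff, natCast_zsmul] at hP hQ
      rw [nsmul_sub, hP, hQ, sub_zero]
    exact Subtype.ext (sub_eq_zero.mp (hker _ h3 h2))
  have hc₁ : Nat.card T₁ = m ^ 2 :=
    Fermat.Agent.Torsion.card_torsionBy (W := (Affine.baseChange W₁ Qb : Affine Qb))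
      (tw_baseChange_Δ_ne_zero hΔ₁) hm
  have hc₂ : Nat.card T₂ = m ^ 2 :=
    Fermat.Agent.Torsion.card_torsionBy (W := (Affine.baseChange W₂ Qb : Affine Qb))
      (tw_baseChange_Δ_ne_zero hΔ₂) hm
  have : Finite T₂ := Fermat.Agent.Torsion.finite_torsionBy
    (W := (Affine.baseChange W₂ Qb : Affine Qb)) (tw_baseChange_Δ_ne_zero hΔ₂) hm
  have hfbij : Function.Bijective f :=
    hfinj.bijective_of_nat_card_le (by rw [hc₁, hc₂])
  intro σ hσ Q hQ
  have hQmem : Q ∈ T₂ := by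
    rw [Submodule.mem_torsionBy_iff, natCast_zsmul]
    exact hQ
  obtain ⟨P, hP⟩ := hfbij.2 ⟨Q, hQmem⟩
  have hPQ : φ P.1 = Q := congrArg Subtype.val hP
  have hmP : m • P.1 = 0 := by
    have := P.2
    rw [Submodule.mem_torsionBy_iff, natCast_zsmul] at this
    exact this
  have e := h σ hσ P.1 hmP
  have e' := congrArg φ e
  rw [map_add, map_sub, map_nsmul, _root_.map_zero] at e'
  rw [hφ, hφ, hPQ] at e'
  exact e'

end Fermat.Agent.ES12
end
end MergeWrap_E_S12_Twist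

section MergeWrap_E_S12_Quot_Unip -- from E/S12/Quot/Unip.lean

set_option autoImplicit false

open WeierstrassCurve WeierstrassCurve.Affine WeierstrassCurve.Affine.Point

noncomputable section

namespace Fermat.Agent.ES12

/-- unipotency at `A` on the `k`-torsion of a semistable integral model (`k` an odd prime different
from the residue characteristic). -/
theorem unipAt_of_semistable (W : WeierstrassCurve ℤ) {ℓ k : ℕ} (hℓ : ℓ.Prime) (hk : k.Prime)
    (hk2 : k ≠ 2) (hℓk : ℓ ≠ k) (hss : (ℓ : ℤ) ∣ W.Δ → ¬ (ℓ : ℤ) ∣ W.c₄)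
    (A : ValuationSubring Qb) (hA : A.LiesOverPrime ℓ) :
    UnipAt (W.map (Int.castRingHom ℚ)) A k := by
  have : Fact ℓ.Prime := ⟨hℓ⟩
  have : Fact k.Prime := ⟨hk⟩
  intro σ hσ P hP
  by_cases hΔ : (ℓ : ℤ) ∣ W.Δ
  · refine Fermat.Agent.MultRed.inertia_unipotent W hΔ (hss hΔ) A hA σ hσ
      (hk.odd_of_ne_two hk2) ?_ P hP
    intro hd
    exact hℓk ((Nat.prime_dvd_prime_iff_eq hℓ hk).mp hd)
  · have h1 : σ • P = P := inertia_trivial_of_good W A hℓk hA hΔ σ hσ P hP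
    rw [h1, h1]
    abel

/-- for every prime `ℓ` there is an odd prime `k ∉ {ℓ, p}`. -/
theorem exists_odd_prime_ne (ℓ p : ℕ) : ∃ k : ℕ, k.Prime ∧ k ≠ 2 ∧ ℓ ≠ k ∧ k ≠ p := by
  by_cases h3 : ℓ ≠ 3 ∧ p ≠ 3
  · exact ⟨3, by norm_num, by norm_num, h3.1, fun h => h3.2 h.symm⟩
  by_cases h5 : ℓ ≠ 5 ∧ p ≠ 5
  · exact ⟨5, by norm_num, by norm_num, h5.1, fun h => h5.2 h.symm⟩
  refine ⟨7, by norm_num, by norm_num, ?_, ?_⟩
  · rintro rfl
    simp only [ne_eq, not_and_or, not_not] at h3 h5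
    omega
  · rintro rfl
    simp only [ne_eq, not_and_or, not_not] at h3 h5
    omega

/-- the discriminant of a change of variables. -/
theorem vc_Δ_ne_zero {W₁ W₂ : WeierstrassCurve ℚ} (C : VariableChange ℚ) (hC : C • W₁ = W₂)
    (hΔ : W₁.Δ ≠ 0) : W₂.Δ ≠ 0 := by
  rw [← hC, variableChange_Δ]
  exact mul_ne_zero (pow_ne_zero _ (Units.ne_zero _)) hΔ

/-- transfer of unipotency along an isomorphism over `ℚ`. -/
theorem unipAt_of_vc {W₁ W₂ : WeierstrassCurve ℚ} (C : VariableChange ℚ) (hC : C • W₁ = W₂)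
    (hΔ : W₁.Δ ≠ 0) (A : ValuationSubring Qb) {m : ℕ} (hm : 0 < m) (h : UnipAt W₁ A m) :
    UnipAt W₂ A m := by
  refine unipAt_of_hom hΔ (vc_Δ_ne_zero C hC hΔ) (Fermat.Agent.VarChange.vcHomBC (K := Qb) C hC)
    (fun σ P => ?_) hm (fun P _ hP => ?_) A h
  · rw [algEquiv_smul_def, algEquiv_smul_def]
    exact Fermat.Agent.VarChange.vcHomBC_map C hC σ.toAlgHom P
  · exact Fermat.Agent.VarChange.vcHomBC_injective C hC (hP.trans (_root_.map_zero _).symm)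

/-- the converse transfer. -/
theorem unipAt_of_vc' {W₁ W₂ : WeierstrassCurve ℚ} (C : VariableChange ℚ) (hC : C • W₁ = W₂)
    (hΔ : W₁.Δ ≠ 0) (A : ValuationSubring Qb) {m : ℕ} (hm : 0 < m) (h : UnipAt W₂ A m) :
    UnipAt W₁ A m :=
  unipAt_of_vc C⁻¹ (by rw [← hC, inv_smul_smul]) (vc_Δ_ne_zero C hC hΔ) A hm h

end Fermat.Agent.ES12
end
end MergeWrap_E_S12_Quot_Unip

section MergeWrap_E_S12_Quot_TwistLeg -- from E/S12/Quot/TwistLeg.lean

set_option autoImplicit false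

open WeierstrassCurve WeierstrassCurve.Affine WeierstrassCurve.Affine.Point

noncomputable section

namespace Fermat.Agent.ES12

theorem legCurve_twist (m n d : ℚ) : legCurve (d * m) (d * n) = quadTwist (legCurve m n) d := by
  ext <;> simp [legCurve, quadTwist] <;> ring

theorem legCurve_map_intCast (m n : ℤ) :
    (legCurve m n).map (Int.castRingHom ℚ) = legCurve (m : ℚ) (n : ℚ) := by
  ext <;> simp [legCurve]

/-- unipotency for the Legendre form of a Frey pair. -/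
theorem unipAt_legCurve {m n : ℤ} (h : IsFreyPair m n) {ℓ k : ℕ} (hℓ : ℓ.Prime) (hk : k.Prime)
    (hk2 : k ≠ 2) (hℓk : ℓ ≠ k) (A : ValuationSubring Qb) (hA : A.LiesOverPrime ℓ) :
    UnipAt (legCurve (m : ℚ) (n : ℚ)) A k := by
  have h1 : UnipAt ((freyLike m n).map (Int.castRingHom ℚ)) A k :=
    unipAt_of_semistable (freyLike m n) hℓ hk hk2 hℓk (freyLike_semistable h hℓ) A hA
  have hΔ : ((freyLike m n).map (Int.castRingHom ℚ)).Δ ≠ 0 := by
    rw [WeierstrassCurve.map_Δ]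
    simpa using freyLike_Δ_ne_zero h
  exact unipAt_of_vc freyLegVC (freyLegVC_smul m n h) hΔ A hk.pos h1

/-- **(LEG + TW)**: a curve `W` over `ℚ`, `ℚ`-isomorphic to `legCurve (d m) (d n)` for a Frey pair
`(m, n)` and a squarefree `d`, with unipotent inertia on its odd prime torsion at every prime, is
`ℚ`-isomorphic to `freyLike m n`. -/
theorem leg_twist_trivial (W : WeierstrassCurve ℚ) (hΔ : W.Δ ≠ 0) (m n d : ℤ)
    (hmn : IsFreyPair m n) (hd : Squarefree d) (C : VariableChange ℚ)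
    (hC : C • W = legCurve ((d * m : ℤ) : ℚ) ((d * n : ℤ) : ℚ)) (p : ℕ)
    (hunip : ∀ ℓ k : ℕ, ℓ.Prime → k.Prime → k ≠ 2 → ℓ ≠ k → k ≠ p →
      ∃ A : ValuationSubring Qb, A.LiesOverPrime ℓ ∧ UnipAt W A k) :
    d = 1 ∧ (freyLegVC⁻¹ * C) • W = (freyLike m n).map (Int.castRingHom ℚ) := by
  have hC' : C • W = quadTwist (legCurve (m : ℚ) (n : ℚ)) (d : ℚ) := by
    rw [hC, ← legCurve_twist]
    push_cast
    rfl
  have hΔF : ((freyLike m n).map (Int.castRingHom ℚ)).Δ ≠ 0 := by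
    rw [WeierstrassCurve.map_Δ]
    simpa using freyLike_Δ_ne_zero hmn
  have hΔL : (legCurve (m : ℚ) (n : ℚ)).Δ ≠ 0 :=
    vc_Δ_ne_zero freyLegVC (freyLegVC_smul m n hmn) hΔF
  have hd1 : d = 1 := by
    refine quadTwist_trivial (legCurve (m : ℚ) (n : ℚ)) rfl rfl hΔL d hd fun ℓ hℓ => ?_
    obtain ⟨k, hk, hk2, hℓk, hkp⟩ := exists_odd_prime_ne ℓ p
    obtain ⟨A, hA, hW⟩ := hunip ℓ k hℓ hk hk2 hℓk hkp
    refine ⟨A, hA, k, hk.odd_of_ne_two hk2, hk.one_lt, unipAt_legCurve hmn hℓ hk hk2 hℓk A hA, ?_⟩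
    exact unipAt_of_vc C hC' hΔ A hk.pos hW
  refine ⟨hd1, ?_⟩
  refine freyLike_of_leg W m n hmn C ?_
  rw [hC, hd1]
  simp

end Fermat.Agent.ES12
end
end MergeWrap_E_S12_Quot_TwistLeg

section MergeWrap_E_S12_Quot -- from E/S12/Quot.lean

set_option autoImplicit false

open WeierstrassCurve WeierstrassCurve.Affine WeierstrassCurve.Affine.Point

noncomputable section

namespace Fermat.Agent.ES12

open Fermat.Agent.EV Fermat.Agent.VarChange

/-- an element of a subgroup of order `p` is killed by `p`. -/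
theorem quot_nsmul_eq_zero_of_mem {X : Type*} [AddCommGroup X] (N₀ : AddSubgroup X) {p : ℕ}
    (hcard : Nat.card N₀ = p) {P : X} (hP : P ∈ N₀) : p • P = 0 := by
  have h := card_nsmul_eq_zero' (G := N₀) (x := ⟨P, hP⟩)
  rw [hcard] at h
  exact congrArg Subtype.val h

/-- a point killed by two coprime numbers is zero. -/
theorem quot_eq_zero_of_coprime {X : Type*} [AddCommGroup X] {k p : ℕ} (h : Nat.Coprime k p)
    {P : X} (hk : k • P = 0) (hp : p • P = 0) : P = 0 := by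
  have h1 : addOrderOf P ∣ k := addOrderOf_dvd_of_nsmul_eq_zero hk
  have h2 : addOrderOf P ∣ p := addOrderOf_dvd_of_nsmul_eq_zero hp
  exact AddMonoid.addOrderOf_eq_one_iff.mp (Nat.eq_one_of_dvd_coprimes h h1 h2)

/-- rewriting the `x`-coordinate of an affine point. -/
theorem quot_some_congr {W : Affine Qb} {X X' Y : Qb} (h : W.Nonsingular X Y) (hX : X = X') :
    ∃ h' : W.Nonsingular X' Y, (Point.some X Y h : W.Point) = .some X' Y h' := by
  subst hX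
  exact ⟨h, rfl⟩

/-- **(QUOT)** from its inputs. -/
theorem quotStatement_of {p : ℕ} (hp : p.Prime) (hp2 : p ≠ 2)
    (hVQ : VeluQStatement) (hL0 : AtTwoStatement p) (hX : VeluXRatStatement) :
    QuotStatement p := by
  intro A B hAB N₀ hcard hstab
  have hΔ : ((freyLike A B).map (Int.castRingHom ℚ)).Δ ≠ 0 := by
    rw [WeierstrassCurve.map_Δ]
    simpa using freyLike_Δ_ne_zero hAB
  have hfinN : Finite N₀ := Nat.finite_of_card_ne_zero (by rw [hcard]; exact hp.ne_zero)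
  have hfin : (N₀ : Set (Pts (freyLike A B))).Finite := Set.toFinite _
  have hodd : Odd p := hp.odd_of_ne_two hp2
  have hoddN : Odd (Nat.card N₀) := by rw [hcard]; exact hodd
  obtain ⟨W', hΔ', hW', φ₀, hsurj, hker, heq, hxmap⟩ :=
    hVQ ((freyLike A B).map (Int.castRingHom ℚ)) hΔ N₀ hfin hoddN hstab
  obtain ⟨hc₄, hj⟩ := hL0 A B hAB N₀ hcard hstab W' hW'
  have hkerp : ∀ P : Pts (freyLike A B), φ₀ P = 0 → p • P = 0 := by
    intro P hP
    have hmem : P ∈ N₀ := by rw [← hker]; exact hP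
    exact quot_nsmul_eq_zero_of_mem N₀ hcard hmem
  have h2 : ∀ Q : (W'⁄Qb).Point, 2 • Q = 0 → ∀ σ : GQ, σ • Q = Q :=
    leg_two_torsion_fixed_of_hom φ₀ hsurj heq p hodd hkerp (freyLike_two_torsion_fixed A B hAB)
  obtain ⟨m, n, d, hmn, hd, C, hC⟩ := leg_of_two_torsion_fixed W' hΔ' hc₄ hj h2
  have hunip : ∀ ℓ k : ℕ, ℓ.Prime → k.Prime → k ≠ 2 → ℓ ≠ k → k ≠ p →
      ∃ Av : ValuationSubring Qb, Av.LiesOverPrime ℓ ∧ UnipAt W' Av k := by
    intro ℓ k hℓ hk hk2 hℓk hkp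
    obtain ⟨Av, hAv⟩ := Fermat.Agent.FrobExists.exists_valuationSubring_liesOver ℓ hℓ
    refine ⟨Av, hAv, unipAt_of_hom hΔ hΔ' φ₀ heq hk.pos ?_ Av
      (unipAt_of_semistable (freyLike A B) hℓ hk hk2 hℓk (freyLike_semistable hAB hℓ) Av hAv)⟩
    intro P hkP hφP
    exact quot_eq_zero_of_coprime ((Nat.coprime_primes hk hp).mpr hkp) hkP (hkerp P hφP)
  obtain ⟨-, hF⟩ := leg_twist_trivial W' hΔ' m n d hmn hd C hC p hunip
  -- the final isogeny
  set ψ : (W'⁄Qb).Point →+ Pts (freyLike m n) := vcHomBC (K := Qb) (freyLegVC⁻¹ * C) hF with hψ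
  have hψinj : Function.Injective ψ := vcHomBC_injective _ hF
  have hψsurj : Function.Surjective ψ := vcHomBC_surjective _ hF
  have hΔQb : (CurveQb (freyLike A B)).Δ ≠ 0 := tw_baseChange_Δ_ne_zero hΔ
  obtain ⟨n₀, d₀, hnd⟩ := hX (CurveQb (freyLike A B)) hΔQb N₀ hfin hoddN
  set D : VariableChange Qb := ((freyLegVC⁻¹ * C)⁻¹).baseChange Qb with hD
  refine ⟨m, n, hmn, ψ.comp φ₀, hψsurj.comp hsurj, ?_, ?_,
    Polynomial.C ((D.u : Qb) ^ 2) * n₀ + Polynomial.C D.r * d₀, d₀, ?_⟩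
  · -- kernel
    ext P
    rw [AddMonoidHom.mem_ker, AddMonoidHom.comp_apply, ← hker, AddMonoidHom.mem_ker]
    constructor
    · intro h
      exact hψinj (h.trans (_root_.map_zero ψ).symm)
    · intro h
      rw [h, _root_.map_zero]
  · -- equivariance
    intro σ P
    rw [AddMonoidHom.comp_apply, AddMonoidHom.comp_apply, heq]
    rw [algEquiv_smul_def, algEquiv_smul_def]
    exact vcHomBC_map _ hF σ.toAlgHom (φ₀ P)
  · -- the `x`-map
    intro x y h hP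
    obtain ⟨hd₀, hx⟩ := hnd x y h hP
    obtain ⟨y', h', hφ⟩ := hxmap x y h hP
    refine ⟨hd₀, ?_⟩
    obtain ⟨h'', hψ'⟩ := vcHomBC_some (K := Qb) (freyLegVC⁻¹ * C) hF h'
    have hXeq : vcX D (veluX (CurveQb (freyLike A B)) (N₀ : Set (Pts (freyLike A B)))
        (.some x y h)) = (Polynomial.C ((D.u : Qb) ^ 2) * n₀ + Polynomial.C D.r * d₀).eval x
          / d₀.eval x := by
      rw [hx]
      simp only [vcX, Polynomial.eval_add, Polynomial.eval_mul, Polynomial.eval_C]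
      field_simp
    obtain ⟨h3, h4⟩ := quot_some_congr h'' hXeq
    exact ⟨_, h3, by rw [AddMonoidHom.comp_apply, hφ, hψ', h4]⟩

end Fermat.Agent.ES12
end
end MergeWrap_E_S12_Quot

section MergeWrap_E_S12_Quot_XRat -- from E/S12/Quot/XRat.lean

set_option autoImplicit false

open WeierstrassCurve WeierstrassCurve.Affine WeierstrassCurve.Affine.Point

noncomputable section

namespace Fermat.Agent.ES12

open Fermat.Agent.EV Polynomial

/-- a finite sum of fractions `n_i (x) / (x - a_i)²` is a fraction of polynomials. -/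
theorem xrat_exists_sum {ι : Type*} [DecidableEq ι] (S : Finset ι) (a : ι → Qb)
    (nQ : ι → Polynomial Qb) :
    ∃ n d : Polynomial Qb, ∀ x : Qb, (∀ i ∈ S, x ≠ a i) →
      d.eval x ≠ 0 ∧ ∑ i ∈ S, (nQ i).eval x / (x - a i) ^ 2 = n.eval x / d.eval x := by
  induction S using Finset.induction_on with
  | empty =>
    refine ⟨0, 1, fun x _ => ⟨by simp, by simp⟩⟩
  | insert i S hi ih =>
    obtain ⟨n, d, hnd⟩ := ih
    refine ⟨nQ i * d + n * (X - C (a i)) ^ 2, (X - C (a i)) ^ 2 * d, fun x hx => ?_⟩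
    have hxi : x - a i ≠ 0 := sub_ne_zero.mpr (hx i (Finset.mem_insert_self i S))
    obtain ⟨hd, hsum⟩ := hnd x fun j hj => hx j (Finset.mem_insert_of_mem hj)
    refine ⟨?_, ?_⟩
    · simp only [eval_mul, eval_pow, eval_sub, eval_X, eval_C]
      exact mul_ne_zero (pow_ne_zero 2 hxi) hd
    · rw [Finset.sum_insert hi, hsum]
      simp only [eval_mul, eval_pow, eval_sub, eval_X, eval_C, eval_add]
      field_simp

/-- two affine points with the same `x`-coordinate are equal or opposite. -/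
theorem xrat_eq_or_eq_neg {W : Affine Qb} {x y y' : Qb} (h : W.Nonsingular x y)
    (h' : W.Nonsingular x y') :
    (Point.some x y h : W.Point) = .some x y' h' ∨ (Point.some x y h : W.Point) = -.some x y' h' := by
  rcases Y_eq_of_X_eq h.1 h'.1 rfl with hy | hy
  · left
    subst hy
    rfl
  · right
    rw [Point.neg_some]
    simp only [Point.some.injEq, true_and]
    exact hy

/-- the `x`-coordinate of a point outside a subgroup differs from those of its nonzero elements. -/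
theorem xrat_ptX_ne {W : Affine Qb} (N₀ : AddSubgroup W.Point) {x y : Qb}
    (h : W.Nonsingular x y) (hP : (Point.some x y h : W.Point) ∉ N₀) {Q : W.Point}
    (hQ : Q ∈ N₀) (hQ0 : Q ≠ 0) : x ≠ ptX Q := by
  rcases Q with _ | ⟨xq, yq, hq⟩
  · exact absurd rfl hQ0
  · intro hx
    change x = xq at hx
    subst hx
    rcases xrat_eq_or_eq_neg h hq with e | e
    · exact hP (e ▸ hQ)
    · exact hP (e ▸ N₀.neg_mem hQ)

/-- **(V1x, rational form)** from Vélu's explicit `x`-formula. -/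
theorem veluXRat_of
    (hXF : ∀ (W : Affine Qb), W.Δ ≠ 0 → ∀ N₀ : AddSubgroup W.Point, (N₀ : Set W.Point).Finite →
      Odd (Nat.card N₀) → VeluXFormula W N₀) :
    VeluXRatStatement := by
  classical
  intro W hΔ N₀ hfin hodd
  have hF := hXF W hΔ N₀ hfin hodd
  have hfin' : {Q : W.Point | Q ∈ (N₀ : Set W.Point) ∧ Q ≠ 0}.Finite :=
    hfin.subset fun Q hQ => hQ.1
  obtain ⟨n, d, hnd⟩ := xrat_exists_sum hfin'.toFinset (fun Q => ptX Q)
    (fun Q => C (veluT W Q) * (X - C (ptX Q)) + C (veluU W Q))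
  refine ⟨X * d + C (1 / 2) * n, d, fun x y h hP => ?_⟩
  have hne : ∀ Q ∈ hfin'.toFinset, x ≠ ptX Q := by
    intro Q hQ
    rw [Set.Finite.mem_toFinset] at hQ
    exact xrat_ptX_ne N₀ h hP hQ.1 hQ.2
  obtain ⟨hd, hsum⟩ := hnd x hne
  refine ⟨hd, ?_⟩
  rw [hF x y h hP]
  have hfs : (∑ᶠ (Q : W.Point) (_ : Q ∈ (N₀ : Set W.Point) ∧ Q ≠ 0),
      (veluT W Q / (x - ptX Q) + veluU W Q / (x - ptX Q) ^ 2)) =
      ∑ Q ∈ hfin'.toFinset, (veluT W Q / (x - ptX Q) + veluU W Q / (x - ptX Q) ^ 2) :=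
    finsum_mem_eq_finite_toFinset_sum _ hfin'
  rw [hfs]
  have hterm : ∀ Q ∈ hfin'.toFinset, veluT W Q / (x - ptX Q) + veluU W Q / (x - ptX Q) ^ 2 =
      (C (veluT W Q) * (X - C (ptX Q)) + C (veluU W Q)).eval x / (x - ptX Q) ^ 2 := by
    intro Q hQ
    have h0 : x - ptX Q ≠ 0 := sub_ne_zero.mpr (hne Q hQ)
    simp only [eval_mul, eval_sub, eval_X, eval_C, eval_add]
    field_simp
  rw [Finset.sum_congr rfl hterm, hsum]
  simp only [eval_mul, eval_X, eval_C, eval_add]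
  field_simp

end Fermat.Agent.ES12
end
end MergeWrap_E_S12_Quot_XRat

section MergeWrap_E_S12_VeluQ -- from E/S12/VeluQ.lean

set_option autoImplicit false
set_option linter.unusedSectionVars false

open WeierstrassCurve WeierstrassCurve.Affine WeierstrassCurve.Affine.Point

namespace Fermat.Agent.ES12

open Fermat.Agent.EV

/-- An element of `Q̄` fixed by the whole Galois group is rational. -/
theorem veluQ_exists_rat_of_fixed (x : Qb) (hx : ∀ σ : GQ, σ x = x) :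
    ∃ r : ℚ, algebraMap ℚ Qb r = x := by
  have h1 : Algebra.IsAlgebraic ℚ (AlgebraicClosure ℚ) := AlgebraicClosure.isAlgebraic ℚ
  have h2 : IsAlgClosure ℚ (AlgebraicClosure ℚ) := ⟨inferInstance, h1⟩
  have h3 : IsGalois ℚ (AlgebraicClosure ℚ) := IsAlgClosure.isGalois ℚ (AlgebraicClosure ℚ)
  exact (InfiniteGalois.mem_range_algebraMap_iff_fixed (k := ℚ) (K := AlgebraicClosure ℚ) x).mpr hx

/-- Transport of points along an equality of curves: the identity on coordinates. -/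
theorem veluQ_transport {K : Type*} [Field K] [DecidableEq K] {V V' : Affine K} (h : V = V') :
    ∃ e : V.Point ≃+ V'.Point, ∀ (x y : K) (hxy : V.Nonsingular x y),
      ∃ hxy' : V'.Nonsingular x y, e (Point.some x y hxy) = Point.some x y hxy' := by
  subst h
  exact ⟨AddEquiv.refl _, fun x y hxy => ⟨hxy, rfl⟩⟩

section Galois

variable {W : WeierstrassCurve ℚ}

theorem veluQ_ptX_smul (σ : GQ) (P : (W⁄Qb).Point) : ptX (σ • P) = σ (ptX P) := by
  rw [Point.algEquiv_smul_def]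
  rcases P with _ | ⟨x, y, h⟩
  · show ptX (Point.map _ (0 : (W⁄Qb).Point)) = σ 0
    rw [_root_.map_zero, _root_.map_zero]
    rfl
  · rw [Point.map_some]
    rfl

theorem veluQ_ptY_smul (σ : GQ) (P : (W⁄Qb).Point) : ptY (σ • P) = σ (ptY P) := by
  rw [Point.algEquiv_smul_def]
  rcases P with _ | ⟨x, y, h⟩
  · show ptY (Point.map _ (0 : (W⁄Qb).Point)) = σ 0
    rw [_root_.map_zero, _root_.map_zero]
    rfl
  · rw [Point.map_some]
    rfl

theorem veluQ_smul_some (σ : GQ) {x y : Qb} (h : (W⁄Qb).Nonsingular x y) :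
    ∃ h' : (W⁄Qb).Nonsingular (σ x) (σ y),
      σ • (Point.some x y h : (W⁄Qb).Point) = Point.some (σ x) (σ y) h' := by
  rw [Point.algEquiv_smul_def, Point.map_some]
  exact ⟨_, rfl⟩

theorem veluQ_smul_mem_iff {N₀ : AddSubgroup (W⁄Qb).Point}
    (hstab : ∀ σ : GQ, ∀ P ∈ N₀, σ • P ∈ N₀) (σ : GQ) (P : (W⁄Qb).Point) :
    σ • P ∈ N₀ ↔ P ∈ N₀ := by
  refine ⟨fun h => ?_, hstab σ P⟩
  have := hstab σ⁻¹ _ h
  rwa [inv_smul_smul] at this

theorem veluQ_bijOn {N₀ : AddSubgroup (W⁄Qb).Point}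
    (hstab : ∀ σ : GQ, ∀ P ∈ N₀, σ • P ∈ N₀) (σ : GQ) :
    Set.BijOn (fun P : (W⁄Qb).Point => σ • P) {Q | Q ∈ N₀ ∧ Q ≠ 0} {Q | Q ∈ N₀ ∧ Q ≠ 0} := by
  refine ⟨?_, (MulAction.injective σ).injOn, ?_⟩
  · rintro Q ⟨hQ, hQ0⟩
    exact ⟨hstab σ Q hQ, fun h0 => hQ0 ((smul_eq_zero_iff_eq σ).mp h0)⟩
  · rintro Q ⟨hQ, hQ0⟩
    refine ⟨σ⁻¹ • Q, ⟨hstab σ⁻¹ Q hQ, fun h0 => hQ0 ((smul_eq_zero_iff_eq σ⁻¹).mp h0)⟩, ?_⟩
    exact smul_inv_smul σ Q

/-- Galois action on a sum over the nonzero points of a Galois-stable finite subgroup. -/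
theorem veluQ_map_finsum {N₀ : AddSubgroup (W⁄Qb).Point}
    (hfin : (N₀ : Set (W⁄Qb).Point).Finite) (hstab : ∀ σ : GQ, ∀ P ∈ N₀, σ • P ∈ N₀)
    (σ : GQ) (F G : (W⁄Qb).Point → Qb) (hFG : ∀ Q : (W⁄Qb).Point, σ (F Q) = G (σ • Q)) :
    σ (∑ᶠ (Q : (W⁄Qb).Point) (_ : Q ∈ (N₀ : Set (W⁄Qb).Point) ∧ Q ≠ 0), F Q)
      = ∑ᶠ (Q : (W⁄Qb).Point) (_ : Q ∈ (N₀ : Set (W⁄Qb).Point) ∧ Q ≠ 0), G Q := by
  have hfin' : ({Q | Q ∈ N₀ ∧ Q ≠ 0} : Set (W⁄Qb).Point).Finite :=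
    hfin.subset fun _ hQ => hQ.1
  have h1 : σ (∑ᶠ Q ∈ ({Q | Q ∈ N₀ ∧ Q ≠ 0} : Set (W⁄Qb).Point), F Q)
      = ∑ᶠ Q ∈ ({Q | Q ∈ N₀ ∧ Q ≠ 0} : Set (W⁄Qb).Point), σ (F Q) :=
    AddMonoidHom.map_finsum_mem F (σ : Qb ≃+* Qb).toAddMonoidHom hfin'
  have h2 : ∑ᶠ Q ∈ ({Q | Q ∈ N₀ ∧ Q ≠ 0} : Set (W⁄Qb).Point), σ (F Q)
      = ∑ᶠ Q ∈ ({Q | Q ∈ N₀ ∧ Q ≠ 0} : Set (W⁄Qb).Point), G Q :=
    finsum_mem_eq_of_bijOn (fun P : (W⁄Qb).Point => σ • P) (veluQ_bijOn hstab σ)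
      (fun Q _ => hFG Q)
  exact h1.trans h2

theorem veluQ_b₂ (σ : GQ) : σ (W⁄Qb).b₂ = (W⁄Qb).b₂ := by
  rw [show (W⁄Qb).b₂ = algebraMap ℚ Qb W.b₂ from WeierstrassCurve.map_b₂ W _]
  exact σ.commutes _

theorem veluQ_b₄ (σ : GQ) : σ (W⁄Qb).b₄ = (W⁄Qb).b₄ := by
  rw [show (W⁄Qb).b₄ = algebraMap ℚ Qb W.b₄ from WeierstrassCurve.map_b₄ W _]
  exact σ.commutes _

theorem veluQ_b₆ (σ : GQ) : σ (W⁄Qb).b₆ = (W⁄Qb).b₆ := by
  rw [show (W⁄Qb).b₆ = algebraMap ℚ Qb W.b₆ from WeierstrassCurve.map_b₆ W _]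
  exact σ.commutes _

theorem veluQ_veluT_smul (σ : GQ) (P : (W⁄Qb).Point) :
    σ (veluT (W⁄Qb) P) = veluT (W⁄Qb) (σ • P) := by
  unfold veluT
  rw [veluQ_ptX_smul]
  simp only [map_add, map_mul, map_pow, map_ofNat, veluQ_b₂, veluQ_b₄]

theorem veluQ_veluU_smul (σ : GQ) (P : (W⁄Qb).Point) :
    σ (veluU (W⁄Qb) P) = veluU (W⁄Qb) (σ • P) := by
  unfold veluU
  rw [veluQ_ptX_smul]
  simp only [map_add, map_mul, map_pow, map_ofNat, veluQ_b₂, veluQ_b₄, veluQ_b₆]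

variable {N₀ : AddSubgroup (W⁄Qb).Point} (hfin : (N₀ : Set (W⁄Qb).Point).Finite)
  (hstab : ∀ σ : GQ, ∀ P ∈ N₀, σ • P ∈ N₀)

include hfin hstab in
theorem veluQ_veluSumT_fixed (σ : GQ) :
    σ (veluSumT (W⁄Qb) (N₀ : Set (W⁄Qb).Point)) = veluSumT (W⁄Qb) (N₀ : Set (W⁄Qb).Point) := by
  unfold veluSumT
  rw [map_div₀, map_ofNat, veluQ_map_finsum hfin hstab σ _ _ (veluQ_veluT_smul σ)]

include hfin hstab in
theorem veluQ_veluSumW_fixed (σ : GQ) :
    σ (veluSumW (W⁄Qb) (N₀ : Set (W⁄Qb).Point)) = veluSumW (W⁄Qb) (N₀ : Set (W⁄Qb).Point) := by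
  unfold veluSumW
  rw [map_div₀, map_ofNat, veluQ_map_finsum hfin hstab σ _
    (fun Q => veluU (W⁄Qb) Q + ptX Q * veluT (W⁄Qb) Q) (fun Q => by
      rw [map_add, map_mul, veluQ_veluU_smul, veluQ_veluT_smul, veluQ_ptX_smul])]

include hfin hstab in
theorem veluQ_veluX_smul (σ : GQ) (P : (W⁄Qb).Point) :
    σ (veluX (W⁄Qb) (N₀ : Set (W⁄Qb).Point) P) = veluX (W⁄Qb) (N₀ : Set (W⁄Qb).Point) (σ • P) := by
  unfold veluX
  rw [map_add, veluQ_ptX_smul, veluQ_map_finsum hfin hstab σ _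
    (fun Q => ptX (σ • P + Q) - ptX Q) (fun Q => by
      rw [map_sub, ← veluQ_ptX_smul, ← veluQ_ptX_smul,
        show σ • (P + Q) = σ • P + σ • Q from smul_add σ P Q])]

include hfin hstab in
theorem veluQ_veluY_smul (σ : GQ) (P : (W⁄Qb).Point) :
    σ (veluY (W⁄Qb) (N₀ : Set (W⁄Qb).Point) P) = veluY (W⁄Qb) (N₀ : Set (W⁄Qb).Point) (σ • P) := by
  unfold veluY
  rw [map_add, veluQ_ptY_smul, veluQ_map_finsum hfin hstab σ _
    (fun Q => ptY (σ • P + Q) - ptY Q) (fun Q => by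
      rw [map_sub, ← veluQ_ptY_smul, ← veluQ_ptY_smul,
        show σ • (P + Q) = σ • P + σ • Q from smul_add σ P Q])]

end Galois

/-- **(V1 + V1Q)** -/
theorem veluQ (hV : VeluStatement) : VeluQStatement := by
  intro W hΔ N₀ hfin hodd hstab
  have hΔ' : (W⁄Qb).Δ ≠ 0 := by
    rw [show (W⁄Qb).Δ = algebraMap ℚ Qb W.Δ from WeierstrassCurve.map_Δ W _]
    simpa using hΔ
  obtain ⟨hΔV, φ₀, hsurj, hker, hφ₀⟩ := hV Qb (W⁄Qb) hΔ' N₀ hfin hodd
  obtain ⟨t₀, ht₀⟩ := veluQ_exists_rat_of_fixed _ (veluQ_veluSumT_fixed hfin hstab)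
  obtain ⟨w₀, hw₀⟩ := veluQ_exists_rat_of_fixed _ (veluQ_veluSumW_fixed hfin hstab)
  let W' : WeierstrassCurve ℚ :=
    { a₁ := W.a₁
      a₂ := W.a₂
      a₃ := W.a₃
      a₄ := W.a₄ - 5 * t₀
      a₆ := W.a₆ - W.b₂ * t₀ - 7 * w₀ }
  have hW' : (W'.map (algebraMap ℚ Qb) : WeierstrassCurve Qb)
      = veluCurve (W⁄Qb) (N₀ : Set (W⁄Qb).Point) := by
    ext
    · rfl
    · rfl
    · rfl
    · show algebraMap ℚ Qb (W.a₄ - 5 * t₀) = (W⁄Qb).a₄ - 5 * veluSumT (W⁄Qb) _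
      rw [map_sub, map_mul, ht₀, map_ofNat]
      rfl
    · show algebraMap ℚ Qb (W.a₆ - W.b₂ * t₀ - 7 * w₀)
        = (W⁄Qb).a₆ - (W⁄Qb).b₂ * veluSumT (W⁄Qb) _ - 7 * veluSumW (W⁄Qb) _
      rw [map_sub, map_sub, map_mul, map_mul, ht₀, hw₀, map_ofNat,
        show (W⁄Qb).b₂ = algebraMap ℚ Qb W.b₂ from WeierstrassCurve.map_b₂ W _]
      rfl
  have hΔW' : W'.Δ ≠ 0 := by
    intro h0
    apply hΔV
    rw [← hW', WeierstrassCurve.map_Δ, h0, _root_.map_zero]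
  obtain ⟨e, he⟩ := veluQ_transport (V := veluCurve (W⁄Qb) (N₀ : Set (W⁄Qb).Point))
    (V' := (W'⁄Qb)) hW'.symm
  refine ⟨W', hΔW', hW', e.toAddMonoidHom.comp φ₀, ?_, ?_, ?_, ?_⟩
  · exact e.surjective.comp hsurj
  · ext P
    rw [AddMonoidHom.mem_ker]
    constructor
    · intro h
      have h1 : φ₀ P = 0 := (EmbeddingLike.map_eq_zero_iff (f := e)).mp h
      have h2 : P ∈ φ₀.ker := h1
      rwa [hker] at h2
    · intro h
      have h2 : P ∈ φ₀.ker := by rw [hker]; exact h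
      show e (φ₀ P) = 0
      rw [AddMonoidHom.mem_ker.mp h2, _root_.map_zero]
  · intro σ P
    show e (φ₀ (σ • P)) = σ • e (φ₀ P)
    by_cases hP : P ∈ N₀
    · have hσP : σ • P ∈ N₀ := hstab σ P hP
      have h1 : φ₀ P = 0 := by rw [← AddMonoidHom.mem_ker, hker]; exact hP
      have h2 : φ₀ (σ • P) = 0 := by rw [← AddMonoidHom.mem_ker, hker]; exact hσP
      rw [h1, h2, _root_.map_zero, smul_zero]
    · have hσP : σ • P ∉ N₀ := fun h => hP ((veluQ_smul_mem_iff hstab σ P).mp h)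
      obtain ⟨h1, hφP⟩ := hφ₀ P hP
      obtain ⟨h2, hφσP⟩ := hφ₀ (σ • P) hσP
      obtain ⟨h1', he1⟩ := he _ _ h1
      obtain ⟨h2', he2⟩ := he _ _ h2
      rw [hφP, hφσP, he1, he2]
      obtain ⟨h3, hs⟩ := veluQ_smul_some (W := W') σ h1'
      rw [hs]
      simp only [Point.some.injEq]
      exact ⟨(veluQ_veluX_smul hfin hstab σ P).symm, (veluQ_veluY_smul hfin hstab σ P).symm⟩
  · intro x y h hP
    obtain ⟨h1, hφP⟩ := hφ₀ _ hP
    obtain ⟨h1', he1⟩ := he _ _ h1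
    exact ⟨_, h1', by show e (φ₀ _) = _; rw [hφP, he1]⟩

end Fermat.Agent.ES12
end MergeWrap_E_S12_VeluQ

section MergeWrap_E_S12_Quot_Final -- from E/S12/Quot/Final.lean

set_option autoImplicit false

open WeierstrassCurve WeierstrassCurve.Affine WeierstrassCurve.Affine.Point

noncomputable section

namespace Fermat.Agent.ES12

open Fermat.Agent.EV

/-- **(QUOT)** from Vélu's theorem and Vélu's `x`-formula. -/
theorem quotStatement {p : ℕ} (hp : p.Prime) (hp2 : p ≠ 2) (hV : VeluStatement)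
    (hXF : ∀ (W : Affine Qb), W.Δ ≠ 0 → ∀ N₀ : AddSubgroup W.Point, (N₀ : Set W.Point).Finite →
      Odd (Nat.card N₀) → VeluXFormula W N₀) :
    QuotStatement p :=
  quotStatement_of hp hp2 (veluQ hV) (atTwoStatement hV hp hp2) (veluXRat_of hXF)

end Fermat.Agent.ES12
end
end MergeWrap_E_S12_Quot_Final
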